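/-
S56, block F (FLAT), leaf [FL-D] core, part 0 (helper6): the quotient of a Hopf order by a
Galois-stable subgroup, with its EXPLICIT order.

S19 `Base.HasHopfOrder.quotient` proves that `{ψ : M ⧸ N → ℚ̄ | ψ ∘ π ∈ Hs}` is a Hopf order on
`M ⧸ N`, but its statement only keeps the existence.  [FL-D] needs the order itself (the reduction
maps of `M` and `M ⧸ N` have to be compatible), so the statement is repeated here with the order
visible; the proof is the one of S19 (same lemmas `cosetSum_mem`, `exists_cosetSum_ne`,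
`exists_invariant_comul`).
-/
import Mathlib
import Fermat.Agent.S19.Base.Quotient

set_option autoImplicit false

namespace Fermat.Agent.S56.Flat.Etale.QuotOrder

open GaloisRep Fermat.Agent.S19.Abs Fermat.Agent.S19.Base

variable {ℓ : ℕ} [Fact ℓ.Prime] {M : Type} [AddCommGroup M] {act : GQ → M → M}

/-- the quotient order `{ψ | ψ ∘ π ∈ Hs}` on `M ⧸ N` -/
noncomputable def quotOrder (Hs : Subalgebra (ratLocalizedAt ℓ) (M → Qb)) (N : AddSubgroup M) :
    Subalgebra (ratLocalizedAt ℓ) ((M ⧸ N) → Qb) :=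
  Hs.comap (pullbackHom ℓ (QuotientAddGroup.mk : M → M ⧸ N))

omit [Fact ℓ.Prime] in
theorem mem_quotOrder {Hs : Subalgebra (ratLocalizedAt ℓ) (M → Qb)} {N : AddSubgroup M}
    {ψ : (M ⧸ N) → Qb} :
    ψ ∈ quotOrder Hs N ↔ (fun y : M => ψ (QuotientAddGroup.mk y)) ∈ Hs :=
  Iff.rfl

/-- the restricted order `{φ ∘ f | φ ∈ Hs}` on a subgroup (S19 `isHopfOrder_pullback`) -/
noncomputable def subOrder (Hs : Subalgebra (ratLocalizedAt ℓ) (M → Qb)) (N : AddSubgroup M) :
    Subalgebra (ratLocalizedAt ℓ) (N → Qb) :=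
  Hs.map (pullbackHom ℓ (N.subtype : N → M))

omit [Fact ℓ.Prime] in
theorem mem_subOrder {Hs : Subalgebra (ratLocalizedAt ℓ) (M → Qb)} {N : AddSubgroup M}
    {ψ : N → Qb} : ψ ∈ subOrder Hs N ↔ ∃ φ ∈ Hs, (fun y : N => φ (y : M)) = ψ :=
  Iff.rfl

/-- the action on a Galois-stable subgroup -/
def subAct (act : GQ → M → M) (N : AddSubgroup M) (hN : ∀ σ, ∀ y ∈ N, act σ y ∈ N) :
    GQ → N → N :=
  fun σ y => ⟨act σ y, hN σ y y.2⟩

omit [Fact ℓ.Prime] in
theorem isHopfOrder_subOrder {Hs : Subalgebra (ratLocalizedAt ℓ) (M → Qb)}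
    (h : IsHopfOrder ℓ act Hs) (N : AddSubgroup M) (hN : ∀ σ, ∀ y ∈ N, act σ y ∈ N) :
    IsHopfOrder ℓ (subAct act N hN) (subOrder Hs N) :=
  isHopfOrder_pullback h N.subtype Subtype.val_injective (fun _ _ => rfl)

/-- **Hopf orders pass to quotients by Galois-stable subgroups, with the explicit order.** -/
theorem isHopfOrder_quotOrder [Finite M] (hact : IsGalAction act)
    {Hs : Subalgebra (ratLocalizedAt ℓ) (M → Qb)} (hH : IsHopfOrder ℓ act Hs)
    (N : AddSubgroup M) (hN : ∀ σ, ∀ y ∈ N, act σ y ∈ N) (actQ : GQ → M ⧸ N → M ⧸ N)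
    (hQ : ∀ σ y, actQ σ (QuotientAddGroup.mk y) = QuotientAddGroup.mk (act σ y)) :
    IsHopfOrder ℓ actQ (quotOrder Hs N) := by
  classical
  have : Fintype N := Fintype.ofFinite N
  let π : M → M ⧸ N := QuotientAddGroup.mk
  have hπ : Function.Surjective π := QuotientAddGroup.mk_surjective
  refine ⟨?_, ?_, ?_, ?_⟩
  · -- equivariance
    intro ψ hψ σ q
    obtain ⟨y, rfl⟩ := hπ q
    rw [hQ]
    exact hH.equivariant _ ((Subalgebra.mem_comap _ _ _).1 hψ) σ y
  · -- finiteness
    have hinj : Function.Injective (pullbackHom ℓ π).toLinearMap := by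
      intro ψ ψ' hψ
      funext q
      obtain ⟨y, rfl⟩ := hπ q
      exact congrFun hψ y
    refine Submodule.fg_of_fg_map_injective _ hinj ?_
    have : IsNoetherian (ratLocalizedAt ℓ) (Subalgebra.toSubmodule Hs) :=
      isNoetherian_of_fg_of_noetherian _ hH.fg
    refine (isNoetherian_submodule (N := Subalgebra.toSubmodule Hs)).1 inferInstance _ ?_
    rintro _ ⟨ψ, hψ, rfl⟩
    exact hψ
  · -- separation
    intro q q' hqq'
    obtain ⟨y, rfl⟩ := hπ q
    obtain ⟨y', rfl⟩ := hπ q'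
    have hyy' : y - y' ∉ N := by
      intro hmem
      apply hqq'
      show (QuotientAddGroup.mk y : M ⧸ N) = QuotientAddGroup.mk y'
      rw [QuotientAddGroup.eq]
      have : -y + y' = -(y - y') := by abel
      rw [this]
      exact N.neg_mem hmem
    obtain ⟨φ, hφ, hne⟩ := exists_cosetSum_ne N hH hyy'
    obtain ⟨ψ, hψ⟩ := (isInv_cosetSum N φ).exists_desc
    refine ⟨ψ, ?_, ?_⟩
    · show ψ ∈ Hs.comap (pullbackHom ℓ π)
      rw [Subalgebra.mem_comap]
      have : pullbackHom ℓ π ψ = fun x => ∑ n : N, φ (x + n) := funext hψ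
      rw [this]
      exact cosetSum_mem N hact hH hN hφ
    · rw [hψ, hψ]
      exact hne
  · -- comultiplication
    intro ψ hψ
    have hφ : pullbackHom ℓ π ψ ∈ Hs := (Subalgebra.mem_comap _ _ _).1 hψ
    obtain ⟨ι, _, a, b, ha, hainv, hb, hbinv, hab⟩ :=
      exists_invariant_comul hact hH N hφ (isInv_comp_mk N ψ)
    choose a' ha' using fun j => (hainv j).exists_desc
    choose b' hb' using fun j => (hbinv j).exists_desc
    refine DeltaRep.to_fin ⟨ι, inferInstance, a', b', fun j => ?_, fun j => ?_, fun q q' => ?_⟩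
    · show a' j ∈ Hs.comap (pullbackHom ℓ π)
      rw [Subalgebra.mem_comap]
      have : pullbackHom ℓ π (a' j) = a j := funext (ha' j)
      rw [this]
      exact ha j
    · show b' j ∈ Hs.comap (pullbackHom ℓ π)
      rw [Subalgebra.mem_comap]
      have : pullbackHom ℓ π (b' j) = b j := funext (hb' j)
      rw [this]
      exact hb j
    · obtain ⟨y, rfl⟩ := hπ q
      obtain ⟨y', rfl⟩ := hπ q'
      show ψ (QuotientAddGroup.mk y + QuotientAddGroup.mk y') =
        ∑ j, a' j (QuotientAddGroup.mk y) * b' j (QuotientAddGroup.mk y')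
      simp only [ha', hb']
      exact hab y y'

end Fermat.Agent.S56.Flat.Etale.QuotOrder
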