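/-
S56, block F (FLAT), leaf [FL-D] core, part 1 (helper6): the connected subgroup of a Hopf order.

`(M, act)` a finite Galois module with a Hopf order `Hs ⊂ Map(M, ℚ̄)`, `ι = padicEmbedding p`.
Two points `y, y'` are CONGRUENT if `‖ι (φ y) - ι (φ y')‖ < 1` for all `φ ∈ Hs` (they have the same
reduction in `𝒢(𝔽̄_p)`), and `conn Hs = {y | y ≡ 0}` is the CONNECTED SUBGROUP (the kernel of the
reduction map); `M ⧸ conn Hs` is the image of `M` in `𝒢(𝔽̄_p)`, the "étale quotient".

* `Cong.add` : congruence is compatible with addition (closure of `Hs` under comultiplication and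
  integrality of the values), so `conn Hs` is a subgroup and `y ≡ y' ↔ y - y' ∈ conn Hs`;
* `cong_act`, `act_sub_mem_conn` : `conn Hs` is stable under `G_p = Gal(ℚ̄_p/ℚ_p)` (acting through
  `localGaloisToGlobal p`) and inertial automorphisms act trivially on `M ⧸ conn Hs`;
* `index_conn_ge` : **multiplicativity** `[M : conn] ≥ [N : conn_N] * [M/N : conn_{M/N}]` for the
  restricted order on a subgroup `N` and the quotient order on `M ⧸ N`.
No group schemes over `𝔽̄_p`, no surjectivity of reduction, no lying-over.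
-/
import Mathlib
import Fermat.Agent.S56.Flat.PointsField
import Fermat.Agent.S56.Flat.Etale.QuotOrder

set_option autoImplicit false
set_option linter.unusedSectionVars false

open GaloisRep Fermat.Agent.S19.Abs Fermat.Agent.S19.Base
open Fermat.Agent.S56.Flat.PointsField Fermat.Agent.S56.Flat.Etale.QuotOrder

namespace Fermat.Agent.S56.Flat.Etale.Connected

/-! ### sums of small elements -/

section Norm

variable {p : ℕ} [Fact p.Prime]

theorem norm_sub_lt_one {a b c : PadicAlgCl p} (h1 : ‖a - b‖ < 1) (h2 : ‖b - c‖ < 1) :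
    ‖a - c‖ < 1 := by
  have : a - c = (a - b) + (b - c) := by ring
  rw [this]
  exact lt_of_le_of_lt (IsUltrametricDist.norm_add_le_max _ _) (max_lt h1 h2)

theorem norm_sum_lt_one {ι : Type*} (s : Finset ι) (f : ι → PadicAlgCl p)
    (h : ∀ i ∈ s, ‖f i‖ < 1) : ‖∑ i ∈ s, f i‖ < 1 := by
  classical
  induction s using Finset.induction_on with
  | empty => simp
  | insert a s ha ih =>
    rw [Finset.sum_insert ha]
    refine lt_of_le_of_lt (IsUltrametricDist.norm_add_le_max _ _) (max_lt ?_ ?_)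
    · exact h a (Finset.mem_insert_self a s)
    · exact ih fun i hi => h i (Finset.mem_insert_of_mem hi)

theorem norm_mul_sub_mul_lt_one {a a' b b' : PadicAlgCl p} (ha' : ‖a'‖ ≤ 1) (hb : ‖b‖ ≤ 1)
    (h1 : ‖a - a'‖ < 1) (h2 : ‖b - b'‖ < 1) : ‖a * b - a' * b'‖ < 1 := by
  have : a * b - a' * b' = (a - a') * b + a' * (b - b') := by ring
  rw [this]
  refine lt_of_le_of_lt (IsUltrametricDist.norm_add_le_max _ _) (max_lt ?_ ?_)
  · rw [norm_mul]
    calc ‖a - a'‖ * ‖b‖ ≤ ‖a - a'‖ * 1 := mul_le_mul_of_nonneg_left hb (norm_nonneg _)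
      _ < 1 := by rwa [mul_one]
  · rw [norm_mul]
    calc ‖a'‖ * ‖b - b'‖ ≤ 1 * ‖b - b'‖ := mul_le_mul_of_nonneg_right ha' (norm_nonneg _)
      _ < 1 := by rwa [one_mul]

end Norm

/-! ### congruence of points -/

section Cong

variable {p : ℕ} [Fact p.Prime] {M : Type} [AddCommGroup M] {act : GQ → M → M}
  {Hs : Subalgebra (ratLocalizedAt p) (M → Qb)}

/-- two points of `M` with the same reduction -/
def Cong (p : ℕ) [Fact p.Prime] (Hs : Subalgebra (ratLocalizedAt p) (M → Qb)) (y y' : M) : Prop :=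
  ∀ φ ∈ Hs, ‖padicEmbedding p (φ y) - padicEmbedding p (φ y')‖ < 1

theorem Cong.refl (y : M) : Cong p Hs y y := fun φ _ => by
  rw [sub_self, norm_zero]
  exact zero_lt_one

theorem Cong.symm {y y' : M} (h : Cong p Hs y y') : Cong p Hs y' y := fun φ hφ => by
  rw [← norm_neg, neg_sub]
  exact h φ hφ

theorem Cong.trans {y y' y'' : M} (h : Cong p Hs y y') (h' : Cong p Hs y' y'') :
    Cong p Hs y y'' := fun φ hφ => norm_sub_lt_one (h φ hφ) (h' φ hφ)

/-- the values are integral -/
theorem norm_apply_le_one (h : IsHopfOrder p act Hs) {φ : M → Qb} (hφ : φ ∈ Hs) (y : M) :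
    ‖padicEmbedding p (φ y)‖ ≤ 1 := by
  rw [← Fermat.Agent.S55.LocalInt.isIntegral_padicInt_iff_norm_le_one]
  exact PointsField.isIntegral_apply h (ptAlg Hs y) ⟨φ, hφ⟩

/-- congruence is compatible with the group law -/
theorem Cong.add (h : IsHopfOrder p act Hs) {y₁ y₁' y₂ y₂' : M} (h1 : Cong p Hs y₁ y₁')
    (h2 : Cong p Hs y₂ y₂') : Cong p Hs (y₁ + y₂) (y₁' + y₂') := by
  intro φ hφ
  obtain ⟨n, a, b, ha, hb, hab⟩ := h.comul φ hφ
  rw [hab, hab, map_sum, map_sum, ← Finset.sum_sub_distrib]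
  refine norm_sum_lt_one _ _ fun j _ => ?_
  rw [map_mul, map_mul]
  exact norm_mul_sub_mul_lt_one (norm_apply_le_one h (ha j) _) (norm_apply_le_one h (hb j) _)
    (h1 _ (ha j)) (h2 _ (hb j))

variable (p) (Hs) in
/-- **the connected subgroup**: the points congruent to `0` -/
def conn (h : IsHopfOrder p act Hs) : AddSubgroup M where
  carrier := {y | Cong p Hs y 0}
  zero_mem' := Cong.refl 0
  add_mem' {y y'} hy hy' := by
    have := Cong.add h hy hy'
    rwa [add_zero] at this
  neg_mem' {y} hy := by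
    have h1 : Cong p Hs (-y + y) (-y + 0) := Cong.add h (Cong.refl (-y)) hy
    rw [neg_add_cancel, add_zero] at h1
    exact h1.symm

theorem mem_conn (h : IsHopfOrder p act Hs) {y : M} : y ∈ conn p Hs h ↔ Cong p Hs y 0 := Iff.rfl

theorem cong_iff_sub_mem (h : IsHopfOrder p act Hs) {y y' : M} :
    Cong p Hs y y' ↔ y - y' ∈ conn p Hs h := by
  rw [mem_conn]
  constructor
  · intro hyy
    have := Cong.add h hyy (Cong.refl (-y'))
    rwa [← sub_eq_add_neg, ← sub_eq_add_neg, sub_self] at this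
  · intro hyy
    have := Cong.add h hyy (Cong.refl y')
    rwa [sub_add_cancel, zero_add] at this

/-! ### the action of `G_p` -/

/-- `G_p`-stability of the congruence -/
theorem cong_act (h : IsHopfOrder p act Hs) (τ : PadicAlgCl p ≃ₐ[ℚ_[p]] PadicAlgCl p) {y y' : M}
    (hyy : Cong p Hs y y') :
    Cong p Hs (act (localGaloisToGlobal p τ) y) (act (localGaloisToGlobal p τ) y') := by
  intro φ hφ
  rw [h.equivariant φ hφ, h.equivariant φ hφ, padicEmbedding_localGaloisToGlobal,
    padicEmbedding_localGaloisToGlobal, ← map_sub]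
  have := nnnorm_padicAlgCl_algEquiv p τ (padicEmbedding p (φ y) - padicEmbedding p (φ y'))
  have h2 : ‖τ (padicEmbedding p (φ y) - padicEmbedding p (φ y'))‖ =
      ‖padicEmbedding p (φ y) - padicEmbedding p (φ y')‖ := congrArg NNReal.toReal this
  rw [h2]
  exact hyy φ hφ

/-- inertial automorphisms of `ℚ̄_p`: trivial on the residue field -/
def IsInertial (τ : PadicAlgCl p ≃ₐ[ℚ_[p]] PadicAlgCl p) : Prop :=
  ∀ x : PadicAlgCl p, ‖x‖ ≤ 1 → ‖τ x - x‖ < 1

/-- inertia acts trivially on `M ⧸ conn` -/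
theorem cong_act_self (h : IsHopfOrder p act Hs) {τ : PadicAlgCl p ≃ₐ[ℚ_[p]] PadicAlgCl p}
    (hτ : IsInertial τ) (y : M) : Cong p Hs (act (localGaloisToGlobal p τ) y) y := by
  intro φ hφ
  rw [h.equivariant φ hφ, padicEmbedding_localGaloisToGlobal]
  exact hτ _ (norm_apply_le_one h hφ y)

theorem act_sub_mem_conn (h : IsHopfOrder p act Hs) {τ : PadicAlgCl p ≃ₐ[ℚ_[p]] PadicAlgCl p}
    (hτ : IsInertial τ) (y : M) : act (localGaloisToGlobal p τ) y - y ∈ conn p Hs h :=
  (cong_iff_sub_mem h).mp (cong_act_self h hτ y)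

theorem act_mem_conn (h : IsHopfOrder p act Hs) (hact : IsGalAction act)
    (τ : PadicAlgCl p ≃ₐ[ℚ_[p]] PadicAlgCl p) {y : M} (hy : y ∈ conn p Hs h) :
    act (localGaloisToGlobal p τ) y ∈ conn p Hs h := by
  rw [mem_conn] at hy ⊢
  have := cong_act h τ hy
  rwa [hact.zero] at this

/-- a subgroup containing all `σ y - y`, `σ` inertial, has index at most `[M : conn]`... in the
form: a subgroup `D` with `D ≤ conn`.  (`(I_p - 1) M ≤ conn Hs`.) -/
theorem closure_le_conn (h : IsHopfOrder p act Hs) :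
    AddSubgroup.closure {z : M | ∃ (τ : PadicAlgCl p ≃ₐ[ℚ_[p]] PadicAlgCl p) (y : M),
      IsInertial τ ∧ z = act (localGaloisToGlobal p τ) y - y} ≤ conn p Hs h := by
  rw [AddSubgroup.closure_le]
  rintro z ⟨τ, y, hτ, rfl⟩
  exact act_sub_mem_conn h hτ y

end Cong

/-! ### sub-objects and quotients -/

section Functorial

variable {p : ℕ} [Fact p.Prime] {M : Type} [AddCommGroup M] {act : GQ → M → M}
  {Hs : Subalgebra (ratLocalizedAt p) (M → Qb)}

theorem cong_subOrder_iff (N : AddSubgroup M) (n n' : N) :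
    Cong p (subOrder Hs N) n n' ↔ Cong p Hs (n : M) (n' : M) := by
  constructor
  · intro hnn φ hφ
    exact hnn (fun y : N => φ (y : M)) (mem_subOrder.mpr ⟨φ, hφ, rfl⟩)
  · intro hnn ψ hψ
    obtain ⟨φ, hφ, rfl⟩ := mem_subOrder.mp hψ
    exact hnn φ hφ

theorem cong_quotOrder (N : AddSubgroup M) {y y' : M} (hyy : Cong p Hs y y') :
    Cong p (quotOrder Hs N) (QuotientAddGroup.mk y : M ⧸ N) (QuotientAddGroup.mk y') := by
  intro ψ hψ
  exact hyy (fun y : M => ψ (QuotientAddGroup.mk y)) (mem_quotOrder.mp hψ)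

variable [Finite M]

/-- **multiplicativity of the étale quotient** (inequality):
`[M : conn] ≥ [N : conn_N] * [M/N : conn_{M/N}]`. -/
theorem index_conn_ge (hact : IsGalAction act) (h : IsHopfOrder p act Hs) (N : AddSubgroup M)
    (hN : ∀ σ, ∀ y ∈ N, act σ y ∈ N) (actQ : GQ → M ⧸ N → M ⧸ N)
    (hQ : ∀ σ y, actQ σ (QuotientAddGroup.mk y) = QuotientAddGroup.mk (act σ y)) :
    (conn p (subOrder Hs N) (isHopfOrder_subOrder h N hN)).index *
      (conn p (quotOrder Hs N) (isHopfOrder_quotOrder hact h N hN actQ hQ)).index ≤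
      (conn p Hs h).index := by
  set C := conn p Hs h with hC
  set CN := conn p (subOrder Hs N) (isHopfOrder_subOrder h N hN) with hCN
  set CQ := conn p (quotOrder Hs N) (isHopfOrder_quotOrder hact h N hN actQ hQ) with hCQ
  -- the preimage of `CQ` in `M`
  set C' : AddSubgroup M := CQ.comap (QuotientAddGroup.mk' N) with hC'
  have hCC' : C ≤ C' := by
    intro y hy
    rw [hC', AddSubgroup.mem_comap]
    have := cong_quotOrder N ((mem_conn h).mp hy)
    exact this
  have hNC' : N ≤ C' := by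
    intro y hy
    rw [hC', AddSubgroup.mem_comap]
    have : (QuotientAddGroup.mk' N) y = 0 := (QuotientAddGroup.eq_zero_iff y).mpr hy
    rw [this]
    exact CQ.zero_mem
  have h1 : C.relIndex C' * C'.index = C.index := AddSubgroup.relIndex_mul_index hCC'
  have h2 : C'.index = CQ.index :=
    AddSubgroup.index_comap_of_surjective CQ (QuotientAddGroup.mk'_surjective N)
  have h3 : C.relIndex N ≤ C.relIndex C' := by
    refine AddSubgroup.relIndex_le_of_le_right hNC' ?_
    intro h0
    have hfin : (C.addSubgroupOf C').index ≠ 0 := AddSubgroup.index_ne_zero_of_finite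
    exact hfin h0
  have h4 : CN.index = C.relIndex N := by
    have : CN = C.addSubgroupOf N := by
      ext n
      rw [AddSubgroup.mem_addSubgroupOf, hCN, mem_conn, hC, mem_conn]
      exact cong_subOrder_iff N n 0
    rw [this]
    rfl
  rw [h4, ← h2, ← h1]
  exact Nat.mul_le_mul_right _ h3

end Functorial

end Fermat.Agent.S56.Flat.Etale.Connected
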