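/-
S56, block F (FLAT), leaf [FL-D] core, part 2 (helper6): LOCAL orders.

The line `ℓ ⊂ V̄` of [FL-D] is only stable under `G_p = Gal(ℚ̄_p/ℚ_p)`, so the quotient `V̄/ℓ` cannot
be formed with the GLOBAL Hopf orders of S19 (`ℤ_(p)`-algebras of `G_ℚ`-equivariant functions
`M → ℚ̄`).  This file redoes the part of S19 `Base/Quotient` which is needed, for the LOCAL span

  `locSpan Hs = ℤ_p-span of {ι ∘ φ | φ ∈ Hs} ⊂ Map(M, ℚ̄_p)`,   `ι = padicEmbedding p`,

a finitely generated `ℤ_p`-module of `G_p`-equivariant functions with values of norm `≤ 1`, closed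
under comultiplication.

* `exists_padic_of_fixed`, `mem_of_fixed`, `exists_padicInt_of_fixed` : Galois theory of
  `ℚ̄_p/ℚ_p` (Mathlib `InfiniteGalois`);
* `linearIndependent_padicAlgCl` : **Artin's lemma**, `ℤ_p`-independent equivariant functions are
  `ℚ̄_p`-independent;
* `deltaRep_invSpan` : the comultiplication of an `N`-invariant element of `locSpan Hs` can be
  written with `N`-invariant elements, for ANY subgroup `N` (S19 `exists_invariant_comul`);
* `cosetSum_mem_invSpan`, `exists_cosetSum_ne` : for a `G_p`-stable subgroup `N` the coset sums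
  `x ↦ ∑_{n ∈ N} ι (φ (x + n))` are `N`-invariant elements of `locSpan Hs` and separate the cosets
  of `N`.
-/
import Mathlib
import Fermat.Agent.S56.Flat.Etale.Connected

set_option autoImplicit false
set_option linter.unusedSectionVars false
set_option linter.style.haveILetI false

open GaloisRep Fermat.Agent.S19.Abs Fermat.Agent.S19.Base
open Fermat.Agent.S56.Flat.PointsField Fermat.Agent.S56.Flat.Etale.Connected

namespace Fermat.Agent.S56.Flat.Etale.LocalOrder

/-- `G_p = Gal(ℚ̄_p/ℚ_p)` -/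
abbrev Gp (p : ℕ) [Fact p.Prime] : Type := PadicAlgCl p ≃ₐ[ℚ_[p]] PadicAlgCl p

/-! ### Galois theory of `ℚ̄_p/ℚ_p` -/

section Fixed

variable {p : ℕ} [Fact p.Prime]

/-- an element of `ℚ̄_p` fixed by `G_p` lies in `ℚ_p` -/
theorem exists_padic_of_fixed (x : PadicAlgCl p) (hx : ∀ τ : Gp p, τ x = x) :
    ∃ q : ℚ_[p], algebraMap ℚ_[p] (PadicAlgCl p) q = x := by
  haveI : IsGalois ℚ_[p] (PadicAlgCl p) := ⟨⟩
  exact (InfiniteGalois.mem_range_algebraMap_iff_fixed x).2 hx

/-- an element of `ℚ̄_p` fixed by `Gal(ℚ̄_p/E)` lies in `E` -/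
theorem mem_of_fixed (E : IntermediateField ℚ_[p] (PadicAlgCl p)) (x : PadicAlgCl p)
    (hx : ∀ τ : Gp p, (∀ e ∈ E, τ e = e) → τ x = x) : x ∈ E := by
  haveI : IsGalois ℚ_[p] (PadicAlgCl p) := ⟨⟩
  rw [← InfiniteGalois.fixedField_fixingSubgroup E, IntermediateField.mem_fixedField_iff]
  intro τ hτ
  exact hx τ (fun e he => hτ ⟨e, he⟩)

/-- an element of `ℚ̄_p` of norm `≤ 1` fixed by `G_p` lies in `ℤ_p` -/
theorem exists_padicInt_of_fixed (x : PadicAlgCl p) (hx : ∀ τ : Gp p, τ x = x) (hn : ‖x‖ ≤ 1) :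
    ∃ r : ℤ_[p], algebraMap ℤ_[p] (PadicAlgCl p) r = x := by
  obtain ⟨q, rfl⟩ := exists_padic_of_fixed x hx
  rw [PadicAlgCl.norm_extends] at hn
  exact ⟨⟨q, hn⟩, Fermat.Agent.S55.LocalInt.algebraMap_padicInt_apply p ⟨q, hn⟩⟩

theorem norm_algebraMap_padicInt_le_one (r : ℤ_[p]) :
    ‖algebraMap ℤ_[p] (PadicAlgCl p) r‖ ≤ 1 := by
  rw [Fermat.Agent.S55.LocalInt.algebraMap_padicInt_apply, PadicAlgCl.norm_extends]
  exact r.2

theorem norm_smul_le (r : ℤ_[p]) (x : PadicAlgCl p) : ‖r • x‖ ≤ ‖x‖ := by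
  rw [Algebra.smul_def, norm_mul]
  exact mul_le_of_le_one_left (norm_nonneg _) (norm_algebraMap_padicInt_le_one r)

theorem algEquiv_smul (τ : Gp p) (r : ℤ_[p]) (x : PadicAlgCl p) : τ (r • x) = r • τ x := by
  rw [Algebra.smul_def, Algebra.smul_def, map_mul,
    Fermat.Agent.S55.LocalInt.algebraMap_padicInt_apply, τ.commutes]

end Fixed

/-! ### Artin's lemma -/

section Artin

variable {p : ℕ} [Fact p.Prime] {M : Type} {actp : Gp p → M → M}

open Classical in
/-- descent step: a non-trivial `ℚ̄_p`-linear relation between equivariant functions yields a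
non-trivial `ℚ_p`-linear relation -/
theorem exists_padic_relation {ι : Type} [Fintype ι] (hsurj : ∀ τ y, ∃ y₀, actp τ y₀ = y)
    (f : ι → M → PadicAlgCl p) (hf : ∀ i (τ : Gp p) y, f i (actp τ y) = τ (f i y)) :
    ∀ (n : ℕ) (c : ι → PadicAlgCl p), (Finset.univ.filter (fun i => c i ≠ 0)).card = n → c ≠ 0 →
      (∀ y, ∑ i, c i * f i y = 0) →
      ∃ q : ι → ℚ_[p], q ≠ 0 ∧ ∀ y, ∑ i, algebraMap ℚ_[p] (PadicAlgCl p) (q i) * f i y = 0 := by
  classical
  intro n
  induction n using Nat.strong_induction_on with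
  | _ n ih =>
  intro c hn hc hrel
  obtain ⟨i₀, hi₀⟩ : ∃ i₀, c i₀ ≠ 0 := by
    by_contra h
    push Not at h
    exact hc (funext h)
  -- normalise
  let c' : ι → PadicAlgCl p := fun i => (c i₀)⁻¹ * c i
  have hc'0 : c' i₀ = 1 := inv_mul_cancel₀ hi₀
  have hrel' : ∀ y, ∑ i, c' i * f i y = 0 := by
    intro y
    have : ∑ i, c' i * f i y = (c i₀)⁻¹ * ∑ i, c i * f i y := by
      rw [Finset.mul_sum]
      refine Finset.sum_congr rfl fun i _ => ?_
      simp only [c']; ring
    rw [this, hrel y, mul_zero]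
  have hsupp' : ∀ i, c' i ≠ 0 ↔ c i ≠ 0 := by
    intro i
    simp only [c', ne_eq, mul_eq_zero, inv_eq_zero, hi₀, false_or]
  by_cases hfix : ∀ (τ : Gp p) i, τ (c' i) = c' i
  · -- all coefficients in `ℚ_p`
    have hq : ∀ i, ∃ q : ℚ_[p], algebraMap ℚ_[p] (PadicAlgCl p) q = c' i := fun i =>
      exists_padic_of_fixed (c' i) (fun τ => hfix τ i)
    choose q hq using hq
    refine ⟨q, ?_, ?_⟩
    · intro h0
      have h1 := hq i₀
      rw [h0, hc'0] at h1
      simp at h1
    · intro y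
      simp only [hq]
      exact hrel' y
  · push Not at hfix
    obtain ⟨τ, i₁, hi₁⟩ := hfix
    let d : ι → PadicAlgCl p := fun i => τ (c' i) - c' i
    have hd : d ≠ 0 := by
      intro h0
      have := congrFun h0 i₁
      simp only [d, Pi.zero_apply, sub_eq_zero] at this
      exact hi₁ this
    have hdrel : ∀ y, ∑ i, d i * f i y = 0 := by
      intro y
      obtain ⟨y₀, hy₀⟩ := hsurj τ y
      have h1 : ∑ i, τ (c' i) * f i y = 0 := by
        have : ∑ i, τ (c' i) * f i y = τ (∑ i, c' i * f i y₀) := by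
          rw [map_sum]
          refine Finset.sum_congr rfl fun i _ => ?_
          rw [show τ (c' i * f i y₀) = τ (c' i) * τ (f i y₀) from map_mul τ _ _, ← hf i τ y₀, hy₀]
        rw [this, hrel' y₀, map_zero]
      have : ∑ i, d i * f i y = ∑ i, τ (c' i) * f i y - ∑ i, c' i * f i y := by
        rw [← Finset.sum_sub_distrib]
        refine Finset.sum_congr rfl fun i _ => ?_
        simp only [d]; ring
      rw [this, h1, hrel' y, sub_zero]
    have hdsupp : (Finset.univ.filter (fun i => d i ≠ 0)) ⊂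
        (Finset.univ.filter (fun i => c i ≠ 0)) := by
      rw [Finset.ssubset_iff_of_subset]
      · refine ⟨i₀, ?_, ?_⟩
        · simp [hi₀]
        · simp only [Finset.mem_filter, Finset.mem_univ, true_and, not_not, d, hc'0, map_one,
            sub_self]
      · intro i hi
        simp only [Finset.mem_filter, Finset.mem_univ, true_and] at hi ⊢
        rw [← hsupp']
        intro h0
        apply hi
        simp only [d, h0, map_zero, sub_self]
    have hlt : (Finset.univ.filter (fun i => d i ≠ 0)).card < n := by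
      rw [← hn]
      exact Finset.card_lt_card hdsupp
    exact ih _ hlt d rfl hd hdrel

/-- **Artin's lemma** over `ℚ_p`: `G_p`-equivariant functions which are independent over `ℤ_p` are
independent over `ℚ̄_p`. -/
theorem linearIndependent_padicAlgCl {ι : Type} [Fintype ι] (hsurj : ∀ τ y, ∃ y₀, actp τ y₀ = y)
    (f : ι → M → PadicAlgCl p) (hf : ∀ i (τ : Gp p) y, f i (actp τ y) = τ (f i y))
    (hR : LinearIndependent ℤ_[p] f) : LinearIndependent (PadicAlgCl p) f := by
  classical
  have hQ : LinearIndependent ℚ_[p] f :=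
    (LinearIndependent.iff_fractionRing (R := ℤ_[p]) (K := ℚ_[p])).mp hR
  rw [Fintype.linearIndependent_iff]
  intro c hc
  by_contra hne
  push Not at hne
  have hc0 : c ≠ 0 := by
    intro h0
    obtain ⟨i, hi⟩ := hne
    exact hi (congrFun h0 i)
  have hrel : ∀ y, ∑ i, c i * f i y = 0 := by
    intro y
    have := congrFun hc y
    simpa [Finset.sum_apply, Pi.smul_apply, smul_eq_mul] using this
  obtain ⟨q, hq0, hq⟩ := exists_padic_relation hsurj f hf _ c rfl hc0 hrel
  rw [Fintype.linearIndependent_iff] at hQ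
  apply hq0
  funext i
  refine hQ q ?_ i
  funext y
  have := hq y
  simpa [Finset.sum_apply, Pi.smul_apply, Algebra.smul_def] using this

end Artin

/-! ### representations of the comultiplication, invariant functions -/

section Delta

variable {p : ℕ} [Fact p.Prime] {M : Type} [AddCommGroup M]

/-- `ψ (y + y') = ∑ j, a j y * b j y'` with `a j`, `b j` in `A` -/
def DeltaRepL (A : Set (M → PadicAlgCl p)) (ψ : M → PadicAlgCl p) : Prop :=
  ∃ (J : Type) (_ : Fintype J) (a b : J → M → PadicAlgCl p), (∀ j, a j ∈ A) ∧ (∀ j, b j ∈ A) ∧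
    ∀ y y' : M, ψ (y + y') = ∑ j, a j y * b j y'

theorem DeltaRepL.zero (A : Submodule ℤ_[p] (M → PadicAlgCl p)) :
    DeltaRepL (A : Set (M → PadicAlgCl p)) 0 :=
  ⟨PEmpty, inferInstance, PEmpty.elim, PEmpty.elim, fun j => j.elim, fun j => j.elim,
    fun _ _ => by simp⟩

theorem DeltaRepL.add {A : Set (M → PadicAlgCl p)} {ψ ψ' : M → PadicAlgCl p}
    (h : DeltaRepL A ψ) (h' : DeltaRepL A ψ') : DeltaRepL A (ψ + ψ') := by
  obtain ⟨J, _, a, b, ha, hb, hab⟩ := h
  obtain ⟨J', _, a', b', ha', hb', hab'⟩ := h'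
  refine ⟨J ⊕ J', inferInstance, Sum.elim a a', Sum.elim b b', ?_, ?_, fun y y' => ?_⟩
  · rintro (j | j)
    · exact ha j
    · exact ha' j
  · rintro (j | j)
    · exact hb j
    · exact hb' j
  · rw [Fintype.sum_sum_type, Pi.add_apply, hab, hab']
    rfl

theorem DeltaRepL.smul {A : Submodule ℤ_[p] (M → PadicAlgCl p)} {ψ : M → PadicAlgCl p}
    (h : DeltaRepL (A : Set (M → PadicAlgCl p)) ψ) (r : ℤ_[p]) :
    DeltaRepL (A : Set (M → PadicAlgCl p)) (r • ψ) := by
  obtain ⟨J, _, a, b, ha, hb, hab⟩ := h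
  refine ⟨J, inferInstance, fun j => r • a j, b, fun j => A.smul_mem r (ha j), hb, fun y y' => ?_⟩
  rw [Pi.smul_apply, hab, Finset.smul_sum]
  refine Finset.sum_congr rfl fun j _ => ?_
  show r • (a j y * b j y') = (r • a j) y * b j y'
  rw [Pi.smul_apply, smul_mul_assoc]

/-- invariance of a function under translation by a subgroup -/
def IsInvL (N : AddSubgroup M) (ψ : M → PadicAlgCl p) : Prop := ∀ y, ∀ n ∈ N, ψ (y + n) = ψ y

/-- the `N`-invariant elements of a module of functions -/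
def invSpan (A : Submodule ℤ_[p] (M → PadicAlgCl p)) (N : AddSubgroup M) :
    Submodule ℤ_[p] (M → PadicAlgCl p) where
  carrier := {ψ | ψ ∈ A ∧ IsInvL N ψ}
  zero_mem' := ⟨A.zero_mem, fun _ _ _ => rfl⟩
  add_mem' := fun {ψ ψ'} hψ hψ' => ⟨A.add_mem hψ.1 hψ'.1, fun y n hn => by
    rw [Pi.add_apply, Pi.add_apply, hψ.2 y n hn, hψ'.2 y n hn]⟩
  smul_mem' := fun c ψ hψ => ⟨A.smul_mem c hψ.1, fun y n hn => by
    rw [Pi.smul_apply, Pi.smul_apply, hψ.2 y n hn]⟩

theorem mem_invSpan {A : Submodule ℤ_[p] (M → PadicAlgCl p)} {N : AddSubgroup M}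
    {ψ : M → PadicAlgCl p} : ψ ∈ invSpan A N ↔ ψ ∈ A ∧ IsInvL N ψ := Iff.rfl

theorem invSpan_le (A : Submodule ℤ_[p] (M → PadicAlgCl p)) (N : AddSubgroup M) :
    invSpan A N ≤ A := fun _ hψ => hψ.1

theorem isTorsionFree_fun : Module.IsTorsionFree ℤ_[p] (M → PadicAlgCl p) := by
  refine Module.IsTorsionFree.of_smul_eq_zero fun r φ hr => ?_
  by_cases h0 : r = 0
  · exact Or.inl h0
  · right
    funext y
    have h1 : (r • φ) y = 0 := by rw [hr]; rfl
    rw [Pi.smul_apply, Algebra.smul_def, mul_eq_zero] at h1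
    rcases h1 with h1 | h1
    · exfalso
      apply h0
      rw [Fermat.Agent.S55.LocalInt.algebraMap_padicInt_apply, map_eq_zero] at h1
      exact Subtype.ext h1
    · exact h1

/-- a finitely generated `ℤ_p`-module of functions has a finite basis -/
theorem exists_basis_family (S : Submodule ℤ_[p] (M → PadicAlgCl p)) (hS : S.FG) :
    ∃ (T : Type) (_ : Fintype T) (u : T → M → PadicAlgCl p), (∀ t, u t ∈ S) ∧
      LinearIndependent ℤ_[p] u ∧
      ∀ φ ∈ S, ∃ c : T → ℤ_[p], φ = ∑ t, c t • u t := by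
  have : Module.Finite ℤ_[p] S := Module.Finite.iff_fg.mpr hS
  have : Module.IsTorsionFree ℤ_[p] (M → PadicAlgCl p) := isTorsionFree_fun
  have : Module.IsTorsionFree ℤ_[p] S := inferInstance
  have : Module.Free ℤ_[p] S :=
    Module.free_of_finite_type_torsion_free' (R := ℤ_[p]) (M := S)
  let b := Module.Free.chooseBasis ℤ_[p] S
  refine ⟨_, inferInstance, fun t => ((b t : S) : M → PadicAlgCl p), fun t => (b t).2,
    b.linearIndependent.map' S.subtype (Submodule.ker_subtype _), fun φ hφ => ?_⟩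
  refine ⟨fun t => b.repr ⟨φ, hφ⟩ t, ?_⟩
  have h1 := congrArg (fun ψ : S => (ψ : M → PadicAlgCl p)) (b.sum_repr ⟨φ, hφ⟩)
  simp only [Submodule.coe_sum, Submodule.coe_smul] at h1
  exact h1.symm

/-- change of the right-hand family in a sum of products -/
theorem exists_rewrite {J T : Type} [Fintype J] [Fintype T] (a b : J → M → PadicAlgCl p)
    (u : T → M → PadicAlgCl p) (hb : ∀ j, ∃ c : T → ℤ_[p], b j = ∑ t, c t • u t) :
    ∃ g : T → M → PadicAlgCl p, (∀ t, g t ∈ Submodule.span ℤ_[p] (Set.range a)) ∧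
      ∀ y y', ∑ j, a j y * b j y' = ∑ t, g t y * u t y' := by
  choose c hc using hb
  refine ⟨fun t => ∑ j, c j t • a j, fun t => ?_, fun y y' => ?_⟩
  · exact Submodule.sum_mem _ fun j _ =>
      Submodule.smul_mem _ _ (Submodule.subset_span ⟨j, rfl⟩)
  · have h2 : ∀ j, b j y' = ∑ t, algebraMap ℤ_[p] (PadicAlgCl p) (c j t) * u t y' := by
      intro j
      rw [hc j, Finset.sum_apply]
      refine Finset.sum_congr rfl fun t _ => ?_
      rw [Pi.smul_apply, Algebra.smul_def]
    have h3 : ∀ t, (∑ j, c j t • a j) y =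
        ∑ j, algebraMap ℤ_[p] (PadicAlgCl p) (c j t) * a j y := by
      intro t
      rw [Finset.sum_apply]
      refine Finset.sum_congr rfl fun j _ => ?_
      rw [Pi.smul_apply, Algebra.smul_def]
    simp_rw [h2, h3, Finset.mul_sum, Finset.sum_mul]
    rw [Finset.sum_comm]
    refine Finset.sum_congr rfl fun t _ => Finset.sum_congr rfl fun j _ => ?_
    ring

variable {actp : Gp p → M → M}

/-- Artin's lemma in the form used below: if `∑ₜ g t z * u t y'` is `N`-invariant in `z` and the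
`u t` are `ℤ_p`-independent equivariant functions, every `g t` is `N`-invariant -/
theorem isInvL_of_sum_mul {T : Type} [Fintype T] (hsurj : ∀ τ y, ∃ y₀, actp τ y₀ = y)
    (N : AddSubgroup M) (u : T → M → PadicAlgCl p)
    (hu : ∀ t (τ : Gp p) y, u t (actp τ y) = τ (u t y))
    (hli : LinearIndependent ℤ_[p] u) (g : T → M → PadicAlgCl p)
    (hrel : ∀ z, ∀ n ∈ N, ∀ y', ∑ t, g t (z + n) * u t y' = ∑ t, g t z * u t y') :
    ∀ t, IsInvL N (g t) := by
  have hQ := linearIndependent_padicAlgCl hsurj u hu hli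
  rw [Fintype.linearIndependent_iff] at hQ
  intro t z n hn
  have := hQ (fun t => g t (z + n) - g t z) (by
    funext y'
    simp only [Finset.sum_apply, Pi.smul_apply, smul_eq_mul, sub_mul, Finset.sum_sub_distrib,
      Pi.zero_apply]
    rw [hrel z n hn y', sub_self]) t
  exact sub_eq_zero.1 this

/-- **the comultiplication of an `N`-invariant element of a local order can be written with
`N`-invariant elements of the order**, for any subgroup `N`. -/
theorem deltaRepL_invSpan (A : Submodule ℤ_[p] (M → PadicAlgCl p))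
    (hsurj : ∀ τ y, ∃ y₀, actp τ y₀ = y)
    (hequiv : ∀ ψ ∈ A, ∀ (τ : Gp p) y, ψ (actp τ y) = τ (ψ y)) (hfg : A.FG)
    (hcomul : ∀ ψ ∈ A, DeltaRepL (A : Set (M → PadicAlgCl p)) ψ)
    (N : AddSubgroup M) {φ : M → PadicAlgCl p} (hφ : φ ∈ invSpan A N) :
    DeltaRepL (invSpan A N : Set (M → PadicAlgCl p)) φ := by
  classical
  obtain ⟨hφA, hinv⟩ := hφ
  -- a basis of the order
  obtain ⟨T, _, u, hu, hli_u, hspan_u⟩ := exists_basis_family A hfg
  -- a basis of the invariant functions
  have hPfg : (invSpan A N).FG := by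
    have : IsNoetherian ℤ_[p] A := isNoetherian_of_fg_of_noetherian _ hfg
    exact (isNoetherian_submodule (N := A)).1 inferInstance (invSpan A N) (invSpan_le A N)
  obtain ⟨I, _, q, hq, hli_q, hspan_q⟩ := exists_basis_family (invSpan A N) hPfg
  obtain ⟨J, _, a, b, ha, hb, hab⟩ := hcomul φ hφA
  -- first step: `φ (y + y') = ∑ₜ g t y * u t y'`
  obtain ⟨g, hg, key1⟩ := exists_rewrite a b u (fun j => hspan_u (b j) (hb j))
  have hgH : ∀ t, g t ∈ A := fun t =>
    (Submodule.span_le (p := A)).2 (by rintro _ ⟨j, rfl⟩; exact ha j) (hg t)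
  have hginv : ∀ t, IsInvL N (g t) := by
    refine isInvL_of_sum_mul hsurj N u (fun t => hequiv _ (hu t)) hli_u g fun z n hn y' => ?_
    rw [← key1, ← key1, ← hab, ← hab, add_right_comm, hinv _ n hn]
  -- second step: `φ (y + y') = ∑ᵢ hh i y' * q i y`
  obtain ⟨hh, hhh, key2⟩ := exists_rewrite u g q (fun t => hspan_q (g t) ⟨hgH t, hginv t⟩)
  have hhH : ∀ i, hh i ∈ A := fun i =>
    (Submodule.span_le (p := A)).2 (by rintro _ ⟨t, rfl⟩; exact hu t) (hhh i)
  have key3 : ∀ y y', φ (y + y') = ∑ i, q i y * hh i y' := by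
    intro y y'
    rw [hab, key1]
    have := key2 y' y
    rw [Finset.sum_congr rfl fun t _ => mul_comm (g t y) (u t y'), this]
    exact Finset.sum_congr rfl fun i _ => mul_comm _ _
  have hhinv : ∀ i, IsInvL N (hh i) := by
    refine isInvL_of_sum_mul hsurj N q (fun i => hequiv _ (hq i).1) hli_q hh
      fun z n hn y' => ?_
    have e1 : ∀ w, ∑ i, hh i w * q i y' = φ (y' + w) := by
      intro w
      rw [key3]
      exact Finset.sum_congr rfl fun i _ => mul_comm _ _
    rw [e1, e1, ← add_assoc, hinv _ n hn]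
  exact ⟨I, inferInstance, q, hh, fun i => hq i, fun i => ⟨hhH i, hhinv i⟩, key3⟩

end Delta

/-! ### the local span of a Hopf order -/

section LocSpan

variable {p : ℕ} [Fact p.Prime] {M : Type} [AddCommGroup M] {act : GQ → M → M}
  {Hs : Subalgebra (ratLocalizedAt p) (M → Qb)}

/-- composition with `ι = padicEmbedding p` -/
noncomputable def emb (p : ℕ) [Fact p.Prime] (φ : M → Qb) : M → PadicAlgCl p :=
  fun y => padicEmbedding p (φ y)

@[simp] theorem emb_apply (φ : M → Qb) (y : M) : emb p φ y = padicEmbedding p (φ y) := rfl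

theorem emb_zero : emb p (0 : M → Qb) = 0 := by
  funext y
  rw [emb_apply, Pi.zero_apply, map_zero, Pi.zero_apply]

theorem emb_add (φ ψ : M → Qb) : emb p (φ + ψ) = emb p φ + emb p ψ := by
  funext y
  rw [emb_apply, Pi.add_apply, map_add, Pi.add_apply, emb_apply, emb_apply]

theorem emb_smul (r : ratLocalizedAt p) (φ : M → Qb) : emb p (r • φ) = toZp p r • emb p φ := by
  funext y
  rw [emb_apply, Pi.smul_apply, Pi.smul_apply, emb_apply, Algebra.smul_def, Algebra.smul_def,
    map_mul]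
  congr 1
  have h1 := (embR p).commutes r
  rw [embR_apply] at h1
  rw [h1]
  exact ringHom_ratLoc_apply (algebraMap (ratLocalizedAt p) (PadicAlgCl p))
    ((algebraMap ℤ_[p] (PadicAlgCl p)).comp (toZp p)) r

/-- the action of `G_p` through `localGaloisToGlobal p` -/
noncomputable def actL (p : ℕ) [Fact p.Prime] (act : GQ → M → M) : Gp p → M → M :=
  fun τ => act (localGaloisToGlobal p τ)

theorem actL_one (hact : IsGalAction act) (y : M) : actL p act 1 y = y := by
  rw [actL, map_one, hact.one]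

theorem actL_mul (hact : IsGalAction act) (σ τ : Gp p) (y : M) :
    actL p act (σ * τ) y = actL p act σ (actL p act τ y) := by
  rw [actL, map_mul, hact.mul]
  rfl

theorem actL_surj (hact : IsGalAction act) (τ : Gp p) (y : M) : ∃ y₀, actL p act τ y₀ = y :=
  hact.surj _ y

/-- **the local span** of a Hopf order: the `ℤ_p`-span of the functions `ι ∘ φ`, `φ ∈ Hs` -/
noncomputable def locSpan (Hs : Subalgebra (ratLocalizedAt p) (M → Qb)) :
    Submodule ℤ_[p] (M → PadicAlgCl p) :=
  Submodule.span ℤ_[p] (emb p '' (Hs : Set (M → Qb)))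

theorem emb_mem_locSpan {φ : M → Qb} (hφ : φ ∈ Hs) : emb p φ ∈ locSpan Hs :=
  Submodule.subset_span ⟨φ, hφ, rfl⟩

theorem locSpan_equivariant (h : IsHopfOrder p act Hs) :
    ∀ ψ ∈ locSpan Hs, ∀ (τ : Gp p) (y : M), ψ (actL p act τ y) = τ (ψ y) := by
  intro ψ hψ τ y
  induction hψ using Submodule.span_induction with
  | mem ψ hψ =>
    obtain ⟨φ, hφ, rfl⟩ := hψ
    rw [emb_apply, emb_apply, actL, h.equivariant φ hφ, padicEmbedding_localGaloisToGlobal]
  | zero => rw [Pi.zero_apply, Pi.zero_apply, map_zero]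
  | add ψ ψ' _ _ hψ hψ' => rw [Pi.add_apply, Pi.add_apply, hψ, hψ', map_add]
  | smul r ψ _ hψ => rw [Pi.smul_apply, Pi.smul_apply, hψ, algEquiv_smul]

theorem locSpan_fg (h : IsHopfOrder p act Hs) : (locSpan Hs).FG := by
  classical
  obtain ⟨S₀, hS₀⟩ := h.fg
  refine ⟨S₀.image (emb p), le_antisymm ?_ ?_⟩
  · refine Submodule.span_mono ?_
    rintro _ hψ
    rw [Finset.coe_image] at hψ
    obtain ⟨φ, hφ, rfl⟩ := hψ
    refine ⟨φ, ?_, rfl⟩
    have : φ ∈ Submodule.span (ratLocalizedAt p) (S₀ : Set (M → Qb)) := Submodule.subset_span hφ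
    rw [hS₀] at this
    exact this
  · rw [locSpan, Submodule.span_le]
    rintro _ ⟨φ, hφ, rfl⟩
    have key : ∀ φ, φ ∈ Submodule.span (ratLocalizedAt p) (S₀ : Set (M → Qb)) →
        emb p φ ∈ Submodule.span ℤ_[p] (↑(S₀.image (emb p)) : Set (M → PadicAlgCl p)) := by
      intro φ hφ
      induction hφ using Submodule.span_induction with
      | mem φ hφ =>
        exact Submodule.subset_span (Finset.mem_coe.mpr (Finset.mem_image_of_mem _ hφ))
      | zero =>
        rw [emb_zero]
        exact Submodule.zero_mem _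
      | add φ ψ _ _ ihφ ihψ =>
        rw [emb_add]
        exact Submodule.add_mem _ ihφ ihψ
      | smul r φ _ ihφ =>
        rw [emb_smul]
        exact Submodule.smul_mem _ _ ihφ
    refine key φ ?_
    rw [hS₀]
    exact hφ

theorem locSpan_deltaRepL (h : IsHopfOrder p act Hs) :
    ∀ ψ ∈ locSpan Hs, DeltaRepL (locSpan Hs : Set (M → PadicAlgCl p)) ψ := by
  intro ψ hψ
  induction hψ using Submodule.span_induction with
  | mem ψ hψ =>
    obtain ⟨φ, hφ, rfl⟩ := hψ
    obtain ⟨n, a, b, ha, hb, hab⟩ := h.comul φ hφ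
    refine ⟨Fin n, inferInstance, fun j => emb p (a j), fun j => emb p (b j),
      fun j => emb_mem_locSpan (ha j), fun j => emb_mem_locSpan (hb j), fun y y' => ?_⟩
    rw [emb_apply, hab, map_sum]
    refine Finset.sum_congr rfl fun j _ => ?_
    exact map_mul (padicEmbedding p) _ _
  | zero => exact DeltaRepL.zero _
  | add ψ ψ' _ _ hψ hψ' => exact hψ.add hψ'
  | smul r ψ _ hψ => exact hψ.smul r

theorem locSpan_norm_le (h : IsHopfOrder p act Hs) :
    ∀ ψ ∈ locSpan Hs, ∀ y : M, ‖ψ y‖ ≤ 1 := by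
  intro ψ hψ y
  induction hψ using Submodule.span_induction with
  | mem ψ hψ =>
    obtain ⟨φ, hφ, rfl⟩ := hψ
    exact norm_apply_le_one h hφ y
  | zero =>
    rw [Pi.zero_apply, norm_zero]
    exact zero_le_one
  | add ψ ψ' _ _ hψ hψ' =>
    rw [Pi.add_apply]
    exact (IsUltrametricDist.norm_add_le_max _ _).trans (max_le hψ hψ')
  | smul r ψ _ hψ =>
    rw [Pi.smul_apply]
    exact (norm_smul_le r _).trans hψ

/-- congruent points have congruent values under all functions of the local span -/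
theorem locSpan_cong {y y' : M} (hyy : Cong p Hs y y') :
    ∀ ψ ∈ locSpan Hs, ‖ψ y - ψ y'‖ < 1 := by
  intro ψ hψ
  induction hψ using Submodule.span_induction with
  | mem ψ hψ =>
    obtain ⟨φ, hφ, rfl⟩ := hψ
    exact hyy φ hφ
  | zero =>
    rw [Pi.zero_apply, Pi.zero_apply, sub_self, norm_zero]
    exact zero_lt_one
  | add ψ ψ' _ _ hψ hψ' =>
    rw [Pi.add_apply, Pi.add_apply, add_sub_add_comm]
    exact lt_of_le_of_lt (IsUltrametricDist.norm_add_le_max _ _) (max_lt hψ hψ')
  | smul r ψ _ hψ =>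
    rw [Pi.smul_apply, Pi.smul_apply, ← smul_sub]
    exact lt_of_le_of_lt (norm_smul_le r _) hψ

end LocSpan

/-! ### coset sums -/

section Trace

variable {p : ℕ} [Fact p.Prime] {M : Type} [AddCommGroup M] {actp : Gp p → M → M}
  (N : AddSubgroup M) [Fintype N]

/-- the coset sum is invariant -/
theorem isInvL_cosetSum (ψ : M → PadicAlgCl p) : IsInvL N (fun x => ∑ n : N, ψ (x + n)) := by
  intro y m hm
  show ∑ n : N, ψ (y + m + n) = ∑ n : N, ψ (y + n)
  have := Equiv.sum_comp (Equiv.addLeft (⟨m, hm⟩ : N)) (fun n : N => ψ (y + n))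
  rw [← this]
  refine Finset.sum_congr rfl fun n _ => ?_
  simp [add_assoc]

/-- the coset sum of an element of a local order, for a `G_p`-stable subgroup, lies in the
order -/
theorem cosetSum_mem (A : Submodule ℤ_[p] (M → PadicAlgCl p))
    (hone : ∀ y, actp 1 y = y) (hmul : ∀ σ τ y, actp (σ * τ) y = actp σ (actp τ y))
    (hequiv : ∀ ψ ∈ A, ∀ (τ : Gp p) y, ψ (actp τ y) = τ (ψ y))
    (hcomul : ∀ ψ ∈ A, DeltaRepL (A : Set (M → PadicAlgCl p)) ψ)
    (hnorm : ∀ ψ ∈ A, ∀ y : M, ‖ψ y‖ ≤ 1)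
    (hN : ∀ τ, ∀ y ∈ N, actp τ y ∈ N) {ψ : M → PadicAlgCl p} (hψ : ψ ∈ A) :
    (fun x => ∑ n : N, ψ (x + n)) ∈ A := by
  obtain ⟨J, _, a, b, ha, hb, hab⟩ := hcomul ψ hψ
  -- `G_p` permutes `N`
  have hperm : ∀ τ : Gp p, ∃ e : N ≃ N, ∀ n : N, ((e n : N) : M) = actp τ n := by
    intro τ
    refine ⟨⟨fun n => ⟨actp τ n, hN τ n n.2⟩, fun n => ⟨actp τ⁻¹ n, hN τ⁻¹ n n.2⟩, ?_, ?_⟩,
      fun n => rfl⟩
    · intro n
      apply Subtype.ext
      show actp τ⁻¹ (actp τ n) = n
      rw [← hmul, inv_mul_cancel, hone]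
    · intro n
      apply Subtype.ext
      show actp τ (actp τ⁻¹ n) = n
      rw [← hmul, mul_inv_cancel, hone]
  have hcoef : ∀ j, ∃ r : ℤ_[p], algebraMap ℤ_[p] (PadicAlgCl p) r = ∑ n : N, b j n := by
    intro j
    refine exists_padicInt_of_fixed _ (fun τ => ?_) ?_
    · obtain ⟨e, he⟩ := hperm τ
      rw [map_sum, ← Equiv.sum_comp e (fun n : N => b j n)]
      refine Finset.sum_congr rfl fun n _ => ?_
      rw [he, hequiv _ (hb j)]
    · exact IsUltrametricDist.norm_sum_le_of_forall_le_of_nonneg zero_le_one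
        fun n _ => hnorm _ (hb j) _
  choose r hr using hcoef
  have heq : (fun x => ∑ n : N, ψ (x + n)) = ∑ j, r j • a j := by
    funext x
    rw [Finset.sum_apply]
    simp only [hab, Pi.smul_apply, Algebra.smul_def]
    rw [Finset.sum_comm]
    refine Finset.sum_congr rfl fun j _ => ?_
    rw [← Finset.mul_sum, hr j, mul_comm]
  rw [heq]
  exact Submodule.sum_mem _ fun j _ => Submodule.smul_mem _ _ (ha j)

variable {act : GQ → M → M} {Hs : Subalgebra (ratLocalizedAt p) (M → Qb)}

/-- the coset sums of the functions `ι ∘ φ`, `φ ∈ Hs`, are `N`-invariant elements of the local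
span, for a `G_p`-stable subgroup `N` -/
theorem cosetSum_mem_invSpan (hact : IsGalAction act) (h : IsHopfOrder p act Hs)
    (hN : ∀ τ : Gp p, ∀ y ∈ N, actL p act τ y ∈ N) {φ : M → Qb} (hφ : φ ∈ Hs) :
    (fun x => ∑ n : N, emb p φ (x + n)) ∈ invSpan (locSpan Hs) N :=
  ⟨cosetSum_mem N (locSpan Hs) (actL_one hact) (actL_mul hact) (locSpan_equivariant h)
    (locSpan_deltaRepL h) (locSpan_norm_le h) hN (emb_mem_locSpan hφ), isInvL_cosetSum N _⟩

/-- the coset sums separate the cosets -/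
theorem exists_cosetSum_ne (h : IsHopfOrder p act Hs) {x x' : M} (hxx' : x - x' ∉ N) :
    ∃ φ ∈ Hs, ∑ n : N, emb p φ (x + n) ≠ ∑ n : N, emb p φ (x' + n) := by
  classical
  by_contra hcon
  push Not at hcon
  -- the evaluation characters
  let χ : M → (Hs →* PadicAlgCl p) := fun y => (ptAlg Hs y : Hs →* PadicAlgCl p)
  have hχ : Function.Injective χ := by
    intro y y' hyy'
    by_contra hne
    obtain ⟨φ, hφ, hφne⟩ := h.separates y y' hne
    apply hφne
    apply (padicEmbedding p).toRingHom.injective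
    exact DFunLike.congr_fun hyy' (⟨φ, hφ⟩ : Hs)
  let pt : N ⊕ N → M := Sum.elim (fun n => x + n) (fun n => x' + n)
  have hpt : Function.Injective pt := by
    rintro (n | n) (m | m) hnm
    · have : (n : M) = m := add_left_cancel hnm
      rw [Subtype.ext this]
    · exfalso
      apply hxx'
      have h1 : x + n = x' + m := hnm
      have h2 : x - x' = m - n := by
        rw [sub_eq_sub_iff_add_eq_add, h1, add_comm]
      rw [h2]
      exact N.sub_mem m.2 n.2
    · exfalso
      apply hxx'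
      have h1 : x' + n = x + m := hnm
      have h2 : x - x' = n - m := by
        rw [sub_eq_sub_iff_add_eq_add, ← h1, add_comm]
      rw [h2]
      exact N.sub_mem n.2 m.2
    · have : (n : M) = m := add_left_cancel hnm
      rw [Subtype.ext this]
  have hli : LinearIndependent (PadicAlgCl p) (fun s : N ⊕ N => (χ (pt s) : Hs → PadicAlgCl p)) :=
    (linearIndependent_monoidHom Hs (PadicAlgCl p)).comp (χ ∘ pt) (hχ.comp hpt)
  rw [Fintype.linearIndependent_iff] at hli
  have h0 := hli (Sum.elim (fun _ => 1) (fun _ => -1)) (by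
    funext φ
    rw [Fintype.sum_sum_type]
    simp only [Sum.elim_inl, Sum.elim_inr, one_smul, neg_smul, Finset.sum_neg_distrib,
      Pi.add_apply, Pi.neg_apply, Finset.sum_apply, Pi.zero_apply]
    have := hcon φ.1 φ.2
    show ∑ n : N, emb p (φ : M → Qb) (x + n) + -∑ n : N, emb p (φ : M → Qb) (x' + n) = 0
    rw [this, add_neg_cancel]) (Sum.inl 0)
  simp at h0

end Trace

end Fermat.Agent.S56.Flat.Etale.LocalOrder
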