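/-
S56, block F (FLAT), leaf [FL-D] core, part 3 (helper6): quotients with unramified Galois action are
étale (Raynaud's bound `e < p - 1`, elementary form), in the vocabulary of the connected subgroup.

* `eq_of_norm_fwdDiff_le` : **rigidity**.  `B` a family of functions `M → ℚ̄_p` closed under
  comultiplication, `y ∈ M` of order `p`, `r ^ (p - 1) < ‖p‖`.  If `‖ψ (z + y) - ψ z‖ ≤ r` for all
  `ψ ∈ B`, `z ∈ M`, then `ψ (z + y) = ψ z`.  Proof: the higher differences satisfy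
  `‖Δ^k ψ‖ ≤ r^k` (comultiplication), and the Gregory–Newton formula for `ψ (z + p y) = ψ z`
  gives `‖p‖ ‖Δψ‖ ≤ max (‖p‖ r², r^p)`, i.e. the bound `r` improves to `r θ`, `θ < 1`; iterate.
* `conn_le_of_unramified` : **THEOREM (LocUnr).**  `Hs` a Hopf order on `M`, `p ≥ 3`, `p M = 0`,
  `N ≤ M` a `G_p`-stable subgroup such that `G_p` acts on `M ⧸ N` through `Gal(E/ℚ_p)`, `E`
  unramified.  Then `conn p Hs h ≤ N`.  [The `N`-invariant functions of the local span have their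
  values in `E`, so congruences modulo `𝔪` are congruences modulo `p`; rigidity; the coset sums
  separate the cosets of `N`.]
* `index_mul_index_le` : the count of [FL-D]: for `W ≤ M` Galois-stable and `N₁ ≤ W`,
  `N₂ ≤ M ⧸ W` as above, `[W : N₁] [M/W : N₂] ≤ [M : conn]`.
-/
import Mathlib
import Fermat.Agent.S56.Flat.Etale.LocalOrder

set_option autoImplicit false
set_option linter.unusedSectionVars false
set_option linter.style.haveILetI false

open GaloisRep Fermat.Agent.S19.Abs Fermat.Agent.S19.Base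
open Fermat.Agent.S56.Flat.PointsField Fermat.Agent.S56.Flat.Etale.QuotOrder
open Fermat.Agent.S56.Flat.Etale.Connected Fermat.Agent.S56.Flat.Etale.LocalOrder
open fwdDiff Finset

namespace Fermat.Agent.S56.Flat.Etale.Unram

/-! ### rigidity -/

section Rigid

variable {p : ℕ} [Fact p.Prime] {M : Type} [AddCommGroup M]

/-- weak closure of a set of functions under comultiplication -/
def ComulClosed (B : Set (M → PadicAlgCl p)) : Prop := ∀ ψ ∈ B, DeltaRepL B ψ

/-- higher differences of a comultiplication -/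
theorem fwdDiff_iter_succ_apply_add {ψ : M → PadicAlgCl p} {J : Type} [Fintype J]
    (a b : J → M → PadicAlgCl p) (hab : ∀ z z' : M, ψ (z + z') = ∑ j, a j z * b j z')
    (y : M) (k : ℕ) (z z' : M) :
    ((Δ_[y])^[k + 1] ψ) (z + z') = ∑ j, ((Δ_[y])^[k] (a j)) z * (Δ_[y] (b j)) z' := by
  rw [Function.iterate_succ_apply, ← fwdDiff_iter_comp_add]
  have h1 : (fun r => Δ_[y] ψ (r + z')) = ∑ j, (Δ_[y] (b j) z') • a j := by
    funext r
    rw [Finset.sum_apply]
    simp only [fwdDiff, Pi.smul_apply, smul_eq_mul]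
    rw [add_assoc, hab, hab, ← Finset.sum_sub_distrib]
    refine Finset.sum_congr rfl fun j _ => ?_
    ring
  rw [h1, fwdDiff_iter_finsetSum, Finset.sum_apply]
  refine Finset.sum_congr rfl fun j _ => ?_
  rw [fwdDiff_iter_const_smul, Pi.smul_apply, smul_eq_mul, mul_comm]

theorem norm_fwdDiff_iter_le {B : Set (M → PadicAlgCl p)} (hB : ComulClosed B) (y : M) (s : ℝ)
    (hs : ∀ ψ ∈ B, ∀ z, ‖Δ_[y] ψ z‖ ≤ s) :
    ∀ k : ℕ, ∀ ψ ∈ B, ∀ z, ‖((Δ_[y])^[k + 1] ψ) z‖ ≤ s ^ (k + 1) := by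
  intro k
  induction k with
  | zero =>
    intro ψ hψ z
    rw [zero_add, Function.iterate_one, pow_one]
    exact hs ψ hψ z
  | succ k ih =>
    intro ψ hψ z
    have hs0 : 0 ≤ s := (norm_nonneg _).trans (hs ψ hψ z)
    obtain ⟨J, _, a, b, ha, hb, hab⟩ := hB ψ hψ
    have := fwdDiff_iter_succ_apply_add a b hab y (k + 1) z 0
    rw [add_zero] at this
    rw [this]
    refine IsUltrametricDist.norm_sum_le_of_forall_le_of_nonneg (pow_nonneg hs0 _) fun j _ => ?_
    rw [norm_mul, pow_succ]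
    exact mul_le_mul (ih (a j) (ha j) z) (hs (b j) (hb j) 0) (norm_nonneg _) (pow_nonneg hs0 _)

theorem norm_natCast_le_one' (n : ℕ) : ‖(n : PadicAlgCl p)‖ ≤ 1 :=
  IsUltrametricDist.norm_natCast_le_one _ n

/-- one step of the improvement -/
theorem norm_mul_fwdDiff_le {B : Set (M → PadicAlgCl p)} (hB : ComulClosed B) (y : M)
    (hper : ∀ ψ ∈ B, ∀ z, ψ (z + p • y) = ψ z) (s : ℝ) (hs1 : s ≤ 1)
    (hs : ∀ ψ ∈ B, ∀ z, ‖Δ_[y] ψ z‖ ≤ s) (ψ : M → PadicAlgCl p) (hψ : ψ ∈ B) (z : M) :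
    ‖(p : PadicAlgCl p)‖ * ‖Δ_[y] ψ z‖ ≤ max (‖(p : PadicAlgCl p)‖ * s ^ 2) (s ^ p) := by
  have hpr : p.Prime := Fact.out
  have hs0 : 0 ≤ s := (norm_nonneg _).trans (hs ψ hψ z)
  have hbound := norm_fwdDiff_iter_le hB y s hs
  have hN := shift_eq_sum_fwdDiff_iter y ψ p z
  rw [hper ψ hψ z] at hN
  -- split off `k = 0` and `k = 1`
  have h2 : 2 ≤ p + 1 := by have := hpr.two_le; omega
  rw [← Finset.sum_range_add_sum_Ico _ h2, Finset.sum_range_succ, Finset.sum_range_one,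
    Nat.choose_zero_right, Nat.choose_one_right, Function.iterate_zero, id_eq, one_smul,
    Function.iterate_one] at hN
  have h3 : (p : PadicAlgCl p) * Δ_[y] ψ z =
      -∑ k ∈ Finset.Ico 2 (p + 1), p.choose k • ((Δ_[y])^[k] ψ) z := by
    have h4 : p • Δ_[y] ψ z + ∑ k ∈ Finset.Ico 2 (p + 1), p.choose k • ((Δ_[y])^[k] ψ) z = 0 := by
      have := hN
      rw [add_assoc] at this
      exact (left_eq_add.mp this)
    rw [nsmul_eq_mul] at h4
    exact eq_neg_of_add_eq_zero_left h4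
  rw [← norm_mul, h3, norm_neg]
  have hm0 : 0 ≤ max (‖(p : PadicAlgCl p)‖ * s ^ 2) (s ^ p) :=
    le_max_of_le_right (pow_nonneg hs0 _)
  refine IsUltrametricDist.norm_sum_le_of_forall_le_of_nonneg hm0 fun k hk => ?_
  rw [Finset.mem_Ico] at hk
  obtain ⟨k', rfl⟩ : ∃ k', k = k' + 1 := ⟨k - 1, by omega⟩
  rw [nsmul_eq_mul, norm_mul]
  have hk' := hbound k' ψ hψ z
  by_cases hkp : k' + 1 = p
  · refine le_max_of_le_right ?_
    rw [hkp] at hk' ⊢
    calc ‖((p.choose p : ℕ) : PadicAlgCl p)‖ * ‖((Δ_[y])^[p] ψ) z‖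
        ≤ 1 * s ^ p := mul_le_mul (norm_natCast_le_one' _) hk' (norm_nonneg _) zero_le_one
      _ = s ^ p := one_mul _
  · refine le_max_of_le_left ?_
    have hdvd : p ∣ p.choose (k' + 1) := hpr.dvd_choose_self (by omega) (by omega)
    obtain ⟨m, hm⟩ := hdvd
    have h5 : ‖((p.choose (k' + 1) : ℕ) : PadicAlgCl p)‖ ≤ ‖(p : PadicAlgCl p)‖ := by
      rw [hm, Nat.cast_mul, norm_mul]
      exact mul_le_of_le_one_right (norm_nonneg _) (norm_natCast_le_one' m)
    have h6 : s ^ (k' + 1) ≤ s ^ 2 := pow_le_pow_of_le_one hs0 hs1 (by omega)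
    exact mul_le_mul h5 (hk'.trans h6) (norm_nonneg _) (norm_nonneg _)

/-- **rigidity** (Raynaud's bound `e < p - 1` in elementary form): a translation by a point `y`
of order `p` which is congruent to the identity modulo elements of norm `r`,
`r ^ (p - 1) < ‖p‖`, on a family of functions closed under comultiplication, is the identity. -/
theorem eq_of_norm_fwdDiff_le {B : Set (M → PadicAlgCl p)} (hB : ComulClosed B) (y : M)
    (hper : ∀ ψ ∈ B, ∀ z, ψ (z + p • y) = ψ z) (r : ℝ) (hr1 : r ≤ 1)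
    (hr : r ^ (p - 1) < ‖(p : PadicAlgCl p)‖)
    (hBr : ∀ ψ ∈ B, ∀ z, ‖ψ (z + y) - ψ z‖ ≤ r) :
    ∀ ψ ∈ B, ∀ z, ψ (z + y) = ψ z := by
  have hpr : p.Prime := Fact.out
  intro ψ₀ hψ₀ z₀
  have hr0 : 0 ≤ r := (norm_nonneg _).trans (hBr ψ₀ hψ₀ z₀)
  set c : ℝ := ‖(p : PadicAlgCl p)‖ with hc
  have hc0 : 0 < c := by
    rw [hc, norm_pos_iff]
    exact_mod_cast hpr.ne_zero
  set θ : ℝ := max r (r ^ (p - 1) / c) with hθ
  have hc1 : c ≤ 1 := norm_natCast_le_one' p
  have hr1' : r < 1 := by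
    by_contra hcon
    push Not at hcon
    have : r = 1 := le_antisymm hr1 hcon
    rw [this, one_pow] at hr
    exact absurd hr (not_lt.mpr hc1)
  have hθ1 : θ < 1 := max_lt hr1' ((div_lt_one hc0).mpr hr)
  have hθ0 : 0 ≤ θ := le_max_of_le_left hr0
  have key : ∀ n : ℕ, ∀ ψ ∈ B, ∀ z, ‖Δ_[y] ψ z‖ ≤ r * θ ^ n := by
    intro n
    induction n with
    | zero =>
      intro ψ hψ z
      rw [pow_zero, mul_one]
      exact hBr ψ hψ z
    | succ n ih =>
      intro ψ hψ z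
      set s := r * θ ^ n with hs
      have hs0 : 0 ≤ s := mul_nonneg hr0 (pow_nonneg hθ0 _)
      have hsr : s ≤ r := mul_le_of_le_one_right hr0 (pow_le_one₀ hθ0 hθ1.le)
      have hs1 : s ≤ 1 := hsr.trans hr1
      have h1 := norm_mul_fwdDiff_le hB y hper s hs1 ih ψ hψ z
      have h2 : max (c * s ^ 2) (s ^ p) ≤ c * (s * θ) := by
        refine max_le ?_ ?_
        · rw [pow_two]
          exact mul_le_mul_of_nonneg_left
            (mul_le_mul_of_nonneg_left (hsr.trans (le_max_left _ _)) hs0) hc0.le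
        · have hp1 : p = (p - 1) + 1 := by have := hpr.one_le; omega
          have h3 : s ^ p = s * s ^ (p - 1) := by
            conv_lhs => rw [hp1, pow_succ']
          have h4 : s ^ (p - 1) ≤ r ^ (p - 1) := pow_le_pow_left₀ hs0 hsr _
          have h5 : r ^ (p - 1) ≤ c * θ := by
            have : r ^ (p - 1) / c ≤ θ := le_max_right _ _
            rw [div_le_iff₀ hc0] at this
            rw [mul_comm]
            exact this
          rw [h3]
          calc s * s ^ (p - 1) ≤ s * (c * θ) := mul_le_mul_of_nonneg_left (h4.trans h5) hs0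
            _ = c * (s * θ) := by ring
      have h3 := h1.trans h2
      have h4 : ‖Δ_[y] ψ z‖ ≤ s * θ := le_of_mul_le_mul_left h3 hc0
      rw [pow_succ, ← mul_assoc]
      exact h4
  have hz : ‖Δ_[y] ψ₀ z₀‖ = 0 := by
    by_contra hne
    have hpos : 0 < ‖Δ_[y] ψ₀ z₀‖ := lt_of_le_of_ne (norm_nonneg _) (Ne.symm hne)
    have hrpos : 0 < r := lt_of_lt_of_le hpos (hBr ψ₀ hψ₀ z₀)
    obtain ⟨n, hn⟩ := exists_pow_lt_of_lt_one (div_pos hpos hrpos) hθ1
    have := key n ψ₀ hψ₀ z₀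
    rw [lt_div_iff₀ hrpos] at hn
    linarith
  rw [norm_eq_zero] at hz
  exact sub_eq_zero.mp hz

end Rigid

/-! ### unramified quotients -/

section Main

variable {p : ℕ} [Fact p.Prime] {M : Type} [AddCommGroup M] {act : GQ → M → M}
  {Hs : Subalgebra (ratLocalizedAt p) (M → Qb)}

/-- an element of norm `< 1` of an unramified extension has norm `≤ ‖p‖` -/
theorem norm_le_of_isUnramifiedIn {E : IntermediateField ℚ_[p] (PadicAlgCl p)}
    (hE : Fermat.Agent.S55.Local.Unram.IsUnramifiedIn ℤ_[p] E) {x : PadicAlgCl p} (hx : x ∈ E)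
    (hx1 : ‖x‖ < 1) : ‖x‖ ≤ (p : ℝ)⁻¹ := by
  have hq1 : (1 : ℝ) < p := by exact_mod_cast (Fact.out : p.Prime).one_lt
  have hq0 : (0 : ℝ) < p := by exact_mod_cast (Fact.out : p.Prime).pos
  by_cases h0 : x = 0
  · rw [h0, norm_zero]
    exact inv_nonneg.mpr hq0.le
  · haveI := hE.finiteDimensional
    have h0' : (⟨x, hx⟩ : E) ≠ 0 := by
      intro hh
      exact h0 (congrArg Subtype.val hh)
    obtain ⟨n, hn⟩ :=
      (Fermat.Agent.S55.LocalInt.isUnramifiedIn_iff_forall_norm_eq_zpow (q := p) (E := E)).mp hE ⟨x, hx⟩ h0'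
    have hn' : ‖x‖ = (p : ℝ) ^ n := hn
    rw [hn'] at hx1 ⊢
    have hneg : n < 0 := by
      by_contra hcon
      push Not at hcon
      exact absurd hx1 (not_lt.mpr (one_le_zpow₀ hq1.le hcon))
    calc (p : ℝ) ^ n ≤ (p : ℝ) ^ (-1 : ℤ) := zpow_le_zpow_right₀ hq1.le (by omega)
      _ = (p : ℝ)⁻¹ := zpow_neg_one _

/-- **THEOREM (LocUnr): a quotient of a finite flat group scheme killed by `p ≥ 3` with unramified
generic fibre is étale**, in the form: the connected subgroup is contained in every `G_p`-stable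
subgroup `N` with `G_p` acting on `M ⧸ N` through an unramified quotient. -/
theorem conn_le_of_unramified [Finite M] (hact : IsGalAction act) (h : IsHopfOrder p act Hs)
    (hp2 : p ≠ 2) (hpM : ∀ y : M, p • y = 0) (N : AddSubgroup M)
    (hN : ∀ τ : Gp p, ∀ y ∈ N, actL p act τ y ∈ N)
    (E : IntermediateField ℚ_[p] (PadicAlgCl p))
    (hE : Fermat.Agent.S55.Local.Unram.IsUnramifiedIn ℤ_[p] E)
    (hEN : ∀ τ : Gp p, (∀ x ∈ E, τ x = x) → ∀ y : M, actL p act τ y - y ∈ N) :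
    conn p Hs h ≤ N := by
  classical
  have hpr : p.Prime := Fact.out
  haveI : Fintype N := Fintype.ofFinite N
  intro y hy
  by_contra hyN
  set B : Submodule ℤ_[p] (M → PadicAlgCl p) := invSpan (locSpan Hs) N with hBdef
  have hB : ComulClosed (B : Set (M → PadicAlgCl p)) := fun ψ hψ =>
    deltaRepL_invSpan (locSpan Hs) (actL_surj hact) (locSpan_equivariant h) (locSpan_fg h)
      (locSpan_deltaRepL h) N hψ
  -- the values lie in `E`
  have hval : ∀ ψ ∈ B, ∀ z : M, ψ z ∈ E := by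
    intro ψ hψ z
    refine mem_of_fixed E _ fun τ hτ => ?_
    rw [← locSpan_equivariant h ψ hψ.1 τ z]
    have h1 := hψ.2 z _ (hEN τ hτ z)
    rw [add_sub_cancel] at h1
    exact h1
  -- the congruences modulo `𝔪` are congruences modulo `p`
  have hcong : ∀ ψ ∈ B, ∀ z : M, ‖ψ (z + y) - ψ z‖ ≤ (p : ℝ)⁻¹ := by
    intro ψ hψ z
    refine norm_le_of_isUnramifiedIn hE (sub_mem (hval ψ hψ _) (hval ψ hψ _)) ?_
    have h1 : Cong p Hs (z + y) (z + 0) := Cong.add h (Cong.refl z) ((mem_conn h).mp hy)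
    rw [add_zero] at h1
    exact locSpan_cong h1 ψ hψ.1
  have hq1 : (1 : ℝ) < p := by exact_mod_cast hpr.one_lt
  have hq0 : (0 : ℝ) < p := by exact_mod_cast hpr.pos
  have hr1 : (p : ℝ)⁻¹ ≤ 1 := (inv_lt_one_of_one_lt₀ hq1).le
  have hr : ((p : ℝ)⁻¹) ^ (p - 1) < ‖(p : PadicAlgCl p)‖ := by
    rw [Fermat.Agent.S55.LocalInt.norm_natCast_self]
    have h3 : 3 ≤ p := by
      have := hpr.two_le
      omega
    exact pow_lt_self_of_lt_one₀ (inv_pos.mpr hq0) (inv_lt_one_of_one_lt₀ hq1) (by omega)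
  have hper : ∀ ψ ∈ (B : Set (M → PadicAlgCl p)), ∀ z, ψ (z + p • y) = ψ z := by
    intro ψ _ z
    rw [hpM y, add_zero]
  have hrig := eq_of_norm_fwdDiff_le hB y hper (p : ℝ)⁻¹ hr1 hr hcong
  -- separation
  have hy0 : y - 0 ∉ N := by rwa [sub_zero]
  obtain ⟨φ, hφ, hne⟩ := LocalOrder.exists_cosetSum_ne N h hy0
  apply hne
  have h1 := hrig _ (cosetSum_mem_invSpan N hact h hN hφ) 0
  simp only [zero_add] at h1 ⊢
  exact h1

/-- the index form of `conn_le_of_unramified` -/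
theorem index_dvd_index_conn [Finite M] (hact : IsGalAction act) (h : IsHopfOrder p act Hs)
    (hp2 : p ≠ 2) (hpM : ∀ y : M, p • y = 0) (N : AddSubgroup M)
    (hN : ∀ τ : Gp p, ∀ y ∈ N, actL p act τ y ∈ N)
    (E : IntermediateField ℚ_[p] (PadicAlgCl p))
    (hE : Fermat.Agent.S55.Local.Unram.IsUnramifiedIn ℤ_[p] E)
    (hEN : ∀ τ : Gp p, (∀ x ∈ E, τ x = x) → ∀ y : M, actL p act τ y - y ∈ N) :
    N.index ∣ (conn p Hs h).index :=
  AddSubgroup.index_dvd_of_le (conn_le_of_unramified hact h hp2 hpM N hN E hE hEN)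

/-! ### the count of [FL-D] -/

theorem isGalAction_subAct (hact : IsGalAction act) (W : AddSubgroup M)
    (hW : ∀ σ, ∀ y ∈ W, act σ y ∈ W) : IsGalAction (subAct act W hW) where
  one y := Subtype.ext (hact.one y)
  mul σ τ y := Subtype.ext (hact.mul σ τ y)
  add σ y y' := Subtype.ext (hact.add σ y y')

theorem isGalAction_quot (hact : IsGalAction act) (W : AddSubgroup M)
    (actQ : GQ → M ⧸ W → M ⧸ W)
    (hQ : ∀ σ y, actQ σ (QuotientAddGroup.mk y) = QuotientAddGroup.mk (act σ y)) :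
    IsGalAction actQ where
  one q := by
    obtain ⟨y, rfl⟩ := QuotientAddGroup.mk_surjective q
    rw [hQ, hact.one]
  mul σ τ q := by
    obtain ⟨y, rfl⟩ := QuotientAddGroup.mk_surjective q
    rw [hQ, hQ, hQ, hact.mul]
  add σ q q' := by
    obtain ⟨y, rfl⟩ := QuotientAddGroup.mk_surjective q
    obtain ⟨y', rfl⟩ := QuotientAddGroup.mk_surjective q'
    rw [← QuotientAddGroup.mk_add, hQ, hQ, hQ, hact.add, QuotientAddGroup.mk_add]

/-- **the count of [FL-D]**: `W ≤ M` a Galois-stable subgroup, `N₁ ≤ W` and `N₂ ≤ M ⧸ W`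
`G_p`-stable subgroups with unramified quotients.  Then `[W : N₁] [M/W : N₂] ≤ [M : conn]`.
(With `closure_le_conn` : `[M : conn] ≤ |M_{I_p}|`.) -/
theorem index_mul_index_le [Finite M] (hact : IsGalAction act) (h : IsHopfOrder p act Hs)
    (hp2 : p ≠ 2) (hpM : ∀ y : M, p • y = 0) (W : AddSubgroup M)
    (hW : ∀ σ, ∀ y ∈ W, act σ y ∈ W) (actQ : GQ → M ⧸ W → M ⧸ W)
    (hQ : ∀ σ y, actQ σ (QuotientAddGroup.mk y) = QuotientAddGroup.mk (act σ y))
    (N₁ : AddSubgroup W) (hN₁ : ∀ τ : Gp p, ∀ y ∈ N₁, actL p (subAct act W hW) τ y ∈ N₁)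
    (E₁ : IntermediateField ℚ_[p] (PadicAlgCl p))
    (hE₁ : Fermat.Agent.S55.Local.Unram.IsUnramifiedIn ℤ_[p] E₁)
    (hEN₁ : ∀ τ : Gp p, (∀ x ∈ E₁, τ x = x) → ∀ y : W, actL p (subAct act W hW) τ y - y ∈ N₁)
    (N₂ : AddSubgroup (M ⧸ W)) (hN₂ : ∀ τ : Gp p, ∀ y ∈ N₂, actL p actQ τ y ∈ N₂)
    (E₂ : IntermediateField ℚ_[p] (PadicAlgCl p))
    (hE₂ : Fermat.Agent.S55.Local.Unram.IsUnramifiedIn ℤ_[p] E₂)
    (hEN₂ : ∀ τ : Gp p, (∀ x ∈ E₂, τ x = x) → ∀ y : M ⧸ W, actL p actQ τ y - y ∈ N₂) :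
    N₁.index * N₂.index ≤ (conn p Hs h).index := by
  have hpW : ∀ y : W, p • y = 0 := fun y => Subtype.ext (by
    rw [AddSubgroup.coe_nsmul, hpM, AddSubgroup.coe_zero])
  have hpQ : ∀ q : M ⧸ W, p • q = 0 := by
    intro q
    obtain ⟨y, rfl⟩ := QuotientAddGroup.mk_surjective q
    rw [← QuotientAddGroup.mk_nsmul, hpM, QuotientAddGroup.mk_zero]
  have h1 := index_dvd_index_conn (isGalAction_subAct hact W hW) (isHopfOrder_subOrder h W hW)
    hp2 hpW N₁ hN₁ E₁ hE₁ hEN₁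
  have h2 := index_dvd_index_conn (isGalAction_quot hact W actQ hQ)
    (isHopfOrder_quotOrder hact h W hW actQ hQ) hp2 hpQ N₂ hN₂ E₂ hE₂ hEN₂
  have h1' := Nat.le_of_dvd (Nat.pos_of_ne_zero AddSubgroup.index_ne_zero_of_finite) h1
  have h2' := Nat.le_of_dvd (Nat.pos_of_ne_zero AddSubgroup.index_ne_zero_of_finite) h2
  exact (Nat.mul_le_mul h1' h2').trans (index_conn_ge hact h W hW actQ hQ)

/-- automorphisms which are inertial on the field of points act trivially on `M ⧸ conn`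
(variant of `Connected.act_sub_mem_conn` with the hypothesis only on `ℚ_p(M)`) -/
theorem act_sub_mem_conn_of_pointsField (h : IsHopfOrder p act Hs) (τ : Gp p)
    (hτ : ∀ x ∈ pointsField p Hs, ‖x‖ ≤ 1 → ‖τ x - x‖ < 1) (y : M) :
    actL p act τ y - y ∈ conn p Hs h := by
  refine (cong_iff_sub_mem h).mp fun φ hφ => ?_
  rw [actL, h.equivariant φ hφ, padicEmbedding_localGaloisToGlobal]
  exact hτ _ (embed_mem_pointsField hφ y) (norm_apply_le_one h hφ y)

/-- `[M : conn] ≤ [M : D]` for every subgroup `D` generated by elements `τ y - y`, `τ` inertial on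
the field of points: `[M : conn] ≤ |M_{I_p}|` -/
theorem index_conn_le_index_closure [Finite M] (h : IsHopfOrder p act Hs) (I : Set (Gp p))
    (hI : ∀ τ ∈ I, ∀ x ∈ pointsField p Hs, ‖x‖ ≤ 1 → ‖τ x - x‖ < 1) :
    (conn p Hs h).index ≤
      (AddSubgroup.closure {z : M | ∃ τ ∈ I, ∃ y : M, z = actL p act τ y - y}).index := by
  refine Nat.le_of_dvd (Nat.pos_of_ne_zero AddSubgroup.index_ne_zero_of_finite)
    (AddSubgroup.index_dvd_of_le ?_)
  rw [AddSubgroup.closure_le]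
  rintro z ⟨τ, hτ, y, rfl⟩
  exact act_sub_mem_conn_of_pointsField h τ (hI τ hτ) y

end Main

end Fermat.Agent.S56.Flat.Etale.Unram
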