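/-
S56, block F (FLAT), leaf [FL-D] core, part 4 (helper6): `Etale/Unram.lean` with the hypotheses in
INERTIA form (shape requested by `PThree`, helper22):

  "every inertial `τ ∈ G_p` (`‖τ x - x‖ < 1` for all integers `x` of `ℚ̄_p`) acts trivially on
   `M ⧸ N`"

instead of "`G_p` acts on `M ⧸ N` through `Gal(E/ℚ_p)`, `E` unramified".  The bridge is helper17's
`PT/UnramInstNorm` : the fixed field of `normInertia p` is the union of the unramified extensions
(`exists_le_En_of_le_fixedField`).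

* `conn_le_of_inertial` : **LocUnr**, inertia form;
* `index_mul_index_le_of_inertial` : the count `[W : N₁] [M/W : N₂] ≤ [M : conn]`;
* `index_conn_le_index_inertial` : `[M : conn] ≤ [M : ⟨τ y - y | τ inertial⟩]`;
* `index_mul_index_le_coinvariants` : the two combined, `[W : N₁] [M/W : N₂] ≤ |M_{I_p}|`.
-/
import Mathlib
import Fermat.Agent.S56.Flat.Etale.Unram
import Fermat.Agent.S56.PT.UnramInstNorm

set_option autoImplicit false
set_option linter.unusedSectionVars false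
set_option linter.style.haveILetI false

open GaloisRep Fermat.Agent.S19.Abs Fermat.Agent.S19.Base
open Fermat.Agent.S56.Flat.PointsField Fermat.Agent.S56.Flat.Etale.QuotOrder
open Fermat.Agent.S56.Flat.Etale.Connected Fermat.Agent.S56.Flat.Etale.LocalOrder
open Fermat.Agent.S56.Flat.Etale.Unram Fermat.Agent.S56.PT.UnramInstNorm IntermediateField

namespace Fermat.Agent.S56.Flat.Etale.Inertial

variable {p : ℕ} [Fact p.Prime] {M : Type} [AddCommGroup M] {act : GQ → M → M}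
  {Hs : Subalgebra (ratLocalizedAt p) (M → Qb)}

theorem isInertial_iff_mem_normInertia (τ : PadicAlgCl p ≃ₐ[ℚ_[p]] PadicAlgCl p) :
    IsInertial τ ↔ τ ∈ normInertia p := Iff.rfl

/-- an element of norm `< 1` fixed by the inertia group has norm `≤ ‖p‖` -/
theorem norm_le_of_fixed {x : PadicAlgCl p}
    (hfix : ∀ τ : PadicAlgCl p ≃ₐ[ℚ_[p]] PadicAlgCl p, IsInertial τ → τ x = x)
    (hx1 : ‖x‖ < 1) : ‖x‖ ≤ (p : ℝ)⁻¹ := by
  have hxint : IsIntegral ℚ_[p] x := Algebra.IsIntegral.isIntegral x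
  haveI : FiniteDimensional ℚ_[p] ℚ_[p]⟮x⟯ := IntermediateField.adjoin.finiteDimensional hxint
  have hle : ℚ_[p]⟮x⟯ ≤ IntermediateField.fixedField (normInertia p) := by
    rw [IntermediateField.adjoin_simple_le_iff, IntermediateField.mem_fixedField_iff]
    intro τ hτ
    exact hfix τ hτ
  obtain ⟨k, hk⟩ := exists_le_En_of_le_fixedField p hle
  exact norm_le_of_isUnramifiedIn (isUnramifiedIn_En_succ p k)
    (hk (IntermediateField.mem_adjoin_simple_self ℚ_[p] x)) hx1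

/-- **THEOREM (LocUnr), inertia form**: `Hs` a Hopf order on `M`, `p ≥ 3`, `p M = 0`, `N ≤ M` a
`G_p`-stable subgroup such that the inertia group acts trivially on `M ⧸ N`.  Then the connected
subgroup of `Hs` is contained in `N`. -/
theorem conn_le_of_inertial [Finite M] (hp2 : p ≠ 2) (hact : IsGalAction act)
    (h : IsHopfOrder p act Hs) (hpM : ∀ y : M, p • y = 0) (N : AddSubgroup M)
    (hN : ∀ τ : PadicAlgCl p ≃ₐ[ℚ_[p]] PadicAlgCl p, ∀ y ∈ N, act (localGaloisToGlobal p τ) y ∈ N)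
    (hI : ∀ τ : PadicAlgCl p ≃ₐ[ℚ_[p]] PadicAlgCl p, IsInertial τ →
      ∀ y : M, act (localGaloisToGlobal p τ) y - y ∈ N) :
    conn p Hs h ≤ N := by
  classical
  have hpr : p.Prime := Fact.out
  haveI : Fintype N := Fintype.ofFinite N
  intro y hy
  by_contra hyN
  set B : Submodule ℤ_[p] (M → PadicAlgCl p) := invSpan (locSpan Hs) N with hBdef
  have hB : ComulClosed (B : Set (M → PadicAlgCl p)) := fun ψ hψ =>
    deltaRepL_invSpan (locSpan Hs) (actL_surj hact) (locSpan_equivariant h) (locSpan_fg h)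
      (locSpan_deltaRepL h) N hψ
  -- the values are fixed by inertia
  have hval : ∀ ψ ∈ B, ∀ z : M, ∀ τ : PadicAlgCl p ≃ₐ[ℚ_[p]] PadicAlgCl p, IsInertial τ →
      τ (ψ z) = ψ z := by
    intro ψ hψ z τ hτ
    rw [← locSpan_equivariant h ψ hψ.1 τ z]
    have h1 := hψ.2 z _ (hI τ hτ z)
    rw [add_sub_cancel] at h1
    exact h1
  -- the congruences modulo `𝔪` are congruences modulo `p`
  have hcong : ∀ ψ ∈ B, ∀ z : M, ‖ψ (z + y) - ψ z‖ ≤ (p : ℝ)⁻¹ := by
    intro ψ hψ z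
    refine norm_le_of_fixed (fun τ hτ => ?_) ?_
    · rw [map_sub, hval ψ hψ _ τ hτ, hval ψ hψ _ τ hτ]
    · have h1 : Cong p Hs (z + y) (z + 0) := Cong.add h (Cong.refl z) ((mem_conn h).mp hy)
      rw [add_zero] at h1
      exact locSpan_cong h1 ψ hψ.1
  have hq1 : (1 : ℝ) < p := by exact_mod_cast hpr.one_lt
  have hq0 : (0 : ℝ) < p := by exact_mod_cast hpr.pos
  have hr1 : (p : ℝ)⁻¹ ≤ 1 := (inv_lt_one_of_one_lt₀ hq1).le
  have hr : ((p : ℝ)⁻¹) ^ (p - 1) < ‖(p : PadicAlgCl p)‖ := by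
    rw [Fermat.Agent.S55.LocalInt.norm_natCast_self]
    have h3 : 3 ≤ p := by
      have := hpr.two_le
      omega
    exact pow_lt_self_of_lt_one₀ (inv_pos.mpr hq0) (inv_lt_one_of_one_lt₀ hq1) (by omega)
  have hper : ∀ ψ ∈ (B : Set (M → PadicAlgCl p)), ∀ z, ψ (z + p • y) = ψ z := by
    intro ψ _ z
    rw [hpM y, add_zero]
  have hrig := eq_of_norm_fwdDiff_le hB y hper (p : ℝ)⁻¹ hr1 hr hcong
  -- separation
  have hy0 : y - 0 ∉ N := by rwa [sub_zero]
  obtain ⟨φ, hφ, hne⟩ := LocalOrder.exists_cosetSum_ne N h hy0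
  apply hne
  have h1 := hrig _ (cosetSum_mem_invSpan N hact h hN hφ) 0
  simp only [zero_add] at h1 ⊢
  exact h1

/-- **the count of [FL-D], inertia form**: `W ≤ M` a Galois-stable subgroup, `N₁ ≤ W` and
`N₂ ≤ M ⧸ W` `G_p`-stable subgroups with trivial action of inertia on the quotients.  Then
`[W : N₁] [M/W : N₂] ≤ [M : conn]`. -/
theorem index_mul_index_le_of_inertial [Finite M] (hp2 : p ≠ 2) (hact : IsGalAction act)
    (h : IsHopfOrder p act Hs) (hpM : ∀ y : M, p • y = 0) (W : AddSubgroup M)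
    (hW : ∀ σ, ∀ y ∈ W, act σ y ∈ W) (actQ : GQ → M ⧸ W → M ⧸ W)
    (hQ : ∀ σ y, actQ σ (QuotientAddGroup.mk y) = QuotientAddGroup.mk (act σ y))
    (N₁ : AddSubgroup W)
    (hN₁ : ∀ τ : PadicAlgCl p ≃ₐ[ℚ_[p]] PadicAlgCl p, ∀ y ∈ N₁,
      subAct act W hW (localGaloisToGlobal p τ) y ∈ N₁)
    (hI₁ : ∀ τ : PadicAlgCl p ≃ₐ[ℚ_[p]] PadicAlgCl p, IsInertial τ →
      ∀ y : W, subAct act W hW (localGaloisToGlobal p τ) y - y ∈ N₁)
    (N₂ : AddSubgroup (M ⧸ W))
    (hN₂ : ∀ τ : PadicAlgCl p ≃ₐ[ℚ_[p]] PadicAlgCl p, ∀ y ∈ N₂,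
      actQ (localGaloisToGlobal p τ) y ∈ N₂)
    (hI₂ : ∀ τ : PadicAlgCl p ≃ₐ[ℚ_[p]] PadicAlgCl p, IsInertial τ →
      ∀ y : M ⧸ W, actQ (localGaloisToGlobal p τ) y - y ∈ N₂) :
    N₁.index * N₂.index ≤ (conn p Hs h).index := by
  have hpW : ∀ y : W, p • y = 0 := fun y => Subtype.ext (by
    rw [AddSubgroup.coe_nsmul, hpM, AddSubgroup.coe_zero])
  have hpQ : ∀ q : M ⧸ W, p • q = 0 := by
    intro q
    obtain ⟨y, rfl⟩ := QuotientAddGroup.mk_surjective q
    rw [← QuotientAddGroup.mk_nsmul, hpM, QuotientAddGroup.mk_zero]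
  have h1 : N₁.index ∣ (conn p (subOrder Hs W) (isHopfOrder_subOrder h W hW)).index :=
    AddSubgroup.index_dvd_of_le (conn_le_of_inertial hp2 (isGalAction_subAct hact W hW)
      (isHopfOrder_subOrder h W hW) hpW N₁ hN₁ hI₁)
  have h2 : N₂.index ∣
      (conn p (quotOrder Hs W) (isHopfOrder_quotOrder hact h W hW actQ hQ)).index :=
    AddSubgroup.index_dvd_of_le (conn_le_of_inertial hp2 (isGalAction_quot hact W actQ hQ)
      (isHopfOrder_quotOrder hact h W hW actQ hQ) hpQ N₂ hN₂ hI₂)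
  have h1' := Nat.le_of_dvd (Nat.pos_of_ne_zero AddSubgroup.index_ne_zero_of_finite) h1
  have h2' := Nat.le_of_dvd (Nat.pos_of_ne_zero AddSubgroup.index_ne_zero_of_finite) h2
  exact (Nat.mul_le_mul h1' h2').trans (index_conn_ge hact h W hW actQ hQ)

/-- the subgroup `(I_p - 1) M` generated by the `τ y - y`, `τ` inertial -/
def augInertial (p : ℕ) [Fact p.Prime] (act : GQ → M → M) : AddSubgroup M :=
  AddSubgroup.closure {z : M | ∃ (τ : PadicAlgCl p ≃ₐ[ℚ_[p]] PadicAlgCl p) (y : M),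
    IsInertial τ ∧ z = act (localGaloisToGlobal p τ) y - y}

theorem sub_mem_augInertial {τ : PadicAlgCl p ≃ₐ[ℚ_[p]] PadicAlgCl p} (hτ : IsInertial τ)
    (y : M) : act (localGaloisToGlobal p τ) y - y ∈ augInertial p act :=
  AddSubgroup.subset_closure ⟨τ, y, hτ, rfl⟩

/-- `[M : conn] ≤ |M_{I_p}|` -/
theorem index_conn_le_index_inertial [Finite M] (h : IsHopfOrder p act Hs) :
    (conn p Hs h).index ≤ (augInertial p act).index :=
  Nat.le_of_dvd (Nat.pos_of_ne_zero AddSubgroup.index_ne_zero_of_finite)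
    (AddSubgroup.index_dvd_of_le (closure_le_conn h))

/-- **`[W : N₁] [M/W : N₂] ≤ |M_{I_p}|`** -/
theorem index_mul_index_le_coinvariants [Finite M] (hp2 : p ≠ 2) (hact : IsGalAction act)
    (h : IsHopfOrder p act Hs) (hpM : ∀ y : M, p • y = 0) (W : AddSubgroup M)
    (hW : ∀ σ, ∀ y ∈ W, act σ y ∈ W) (actQ : GQ → M ⧸ W → M ⧸ W)
    (hQ : ∀ σ y, actQ σ (QuotientAddGroup.mk y) = QuotientAddGroup.mk (act σ y))
    (N₁ : AddSubgroup W)
    (hN₁ : ∀ τ : PadicAlgCl p ≃ₐ[ℚ_[p]] PadicAlgCl p, ∀ y ∈ N₁,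
      subAct act W hW (localGaloisToGlobal p τ) y ∈ N₁)
    (hI₁ : ∀ τ : PadicAlgCl p ≃ₐ[ℚ_[p]] PadicAlgCl p, IsInertial τ →
      ∀ y : W, subAct act W hW (localGaloisToGlobal p τ) y - y ∈ N₁)
    (N₂ : AddSubgroup (M ⧸ W))
    (hN₂ : ∀ τ : PadicAlgCl p ≃ₐ[ℚ_[p]] PadicAlgCl p, ∀ y ∈ N₂,
      actQ (localGaloisToGlobal p τ) y ∈ N₂)
    (hI₂ : ∀ τ : PadicAlgCl p ≃ₐ[ℚ_[p]] PadicAlgCl p, IsInertial τ →
      ∀ y : M ⧸ W, actQ (localGaloisToGlobal p τ) y - y ∈ N₂) :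
    N₁.index * N₂.index ≤ (augInertial p act).index :=
  (index_mul_index_le_of_inertial hp2 hact h hpM W hW actQ hQ N₁ hN₁ hI₁ N₂ hN₂ hI₂).trans
    (index_conn_le_index_inertial h)

/-- the residual twin: `[M : N] ≤ |M_{I_p}|` for a `G_p`-stable `N` with trivial action of inertia
on `M ⧸ N` -/
theorem index_le_coinvariants [Finite M] (hp2 : p ≠ 2) (hact : IsGalAction act)
    (h : IsHopfOrder p act Hs) (hpM : ∀ y : M, p • y = 0) (N : AddSubgroup M)
    (hN : ∀ τ : PadicAlgCl p ≃ₐ[ℚ_[p]] PadicAlgCl p, ∀ y ∈ N, act (localGaloisToGlobal p τ) y ∈ N)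
    (hI : ∀ τ : PadicAlgCl p ≃ₐ[ℚ_[p]] PadicAlgCl p, IsInertial τ →
      ∀ y : M, act (localGaloisToGlobal p τ) y - y ∈ N) :
    N.index ≤ (augInertial p act).index :=
  (Nat.le_of_dvd (Nat.pos_of_ne_zero AddSubgroup.index_ne_zero_of_finite)
    (AddSubgroup.index_dvd_of_le (conn_le_of_inertial hp2 hact h hpM N hN hI))).trans
    (index_conn_le_index_inertial h)

end Fermat.Agent.S56.Flat.Etale.Inertial
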