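/-
S56, block F (FLAT), leaf [FL-D] core, part 6 (helper6): the connected subgroup is INTRINSIC.

For a Hopf order `Hs` on a finite `p`-group `M` (`p ≥ 3`), the connected subgroup is the
augmentation subgroup of the inertia group:

  `conn p Hs h = augInertial p act = ⟨τ y - y | τ inertial, y ∈ M⟩`,

so the "étale quotient" `M ⧸ conn` is the module of inertia coinvariants `M_{I_p}`, independently of
the Hopf order.  With `Connected.index_conn_ge` this says that inertia coinvariants are exact on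
Galois-stable filtrations of flat modules (`index_augInertial_ge`).

* `augInertial_stable` : `(I_p - 1) M` is `G_p`-stable (inertia is normal);
* `conn_le_of_inertial_ppow` : (LocUnr) for modules of `p`-power order (induction on the order of
  the point: the rigidity lemma only needs `ψ (z + p y) = ψ z`);
* `conn_eq_augInertial` : the intrinsic description.
-/
import Mathlib
import Fermat.Agent.S56.Flat.Etale.Inertial

set_option autoImplicit false
set_option linter.unusedSectionVars false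
set_option linter.style.haveILetI false

open GaloisRep Fermat.Agent.S19.Abs Fermat.Agent.S19.Base
open Fermat.Agent.S56.Flat.PointsField Fermat.Agent.S56.Flat.Etale.QuotOrder
open Fermat.Agent.S56.Flat.Etale.Connected Fermat.Agent.S56.Flat.Etale.LocalOrder
open Fermat.Agent.S56.Flat.Etale.Unram Fermat.Agent.S56.Flat.Etale.Inertial
open Fermat.Agent.S56.PT.UnramInstNorm

namespace Fermat.Agent.S56.Flat.Etale.Intrinsic

variable {p : ℕ} [Fact p.Prime] {M : Type} [AddCommGroup M] {act : GQ → M → M}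
  {Hs : Subalgebra (ratLocalizedAt p) (M → Qb)}

theorem act_neg (hact : IsGalAction act) (σ : GQ) (y : M) : act σ (-y) = -act σ y := by
  have h1 := hact.add σ y (-y)
  rw [add_neg_cancel, hact.zero] at h1
  exact (neg_eq_of_add_eq_zero_right h1.symm).symm

theorem act_sub (hact : IsGalAction act) (σ : GQ) (y y' : M) :
    act σ (y - y') = act σ y - act σ y' := by
  rw [sub_eq_add_neg, hact.add, act_neg hact, ← sub_eq_add_neg]

/-- `(I_p - 1) M` is stable under `G_p` -/
theorem augInertial_stable (hact : IsGalAction act)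
    (τ : PadicAlgCl p ≃ₐ[ℚ_[p]] PadicAlgCl p) :
    ∀ y ∈ augInertial p act, act (localGaloisToGlobal p τ) y ∈ augInertial p act := by
  intro y hy
  induction hy using AddSubgroup.closure_induction with
  | mem z hz =>
    obtain ⟨τ₀, y, hτ₀, rfl⟩ := hz
    have hconj : IsInertial (τ * τ₀ * τ⁻¹) :=
      (normal_normInertia p).conj_mem τ₀ hτ₀ τ
    have h1 : act (localGaloisToGlobal p τ) (act (localGaloisToGlobal p τ₀) y) =
        act (localGaloisToGlobal p (τ * τ₀ * τ⁻¹)) (act (localGaloisToGlobal p τ) y) := by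
      rw [← hact.mul, ← hact.mul, ← map_mul, ← map_mul, inv_mul_cancel_right]
    rw [act_sub hact, h1]
    exact sub_mem_augInertial hconj _
  | zero =>
    rw [hact.zero]
    exact (augInertial p act).zero_mem
  | add a b _ _ ha hb =>
    rw [hact.add]
    exact (augInertial p act).add_mem ha hb
  | neg a _ ha =>
    rw [act_neg hact]
    exact (augInertial p act).neg_mem ha

/-- **(LocUnr) for modules of `p`-power order.** -/
theorem conn_le_of_inertial_ppow [Finite M] (hp2 : p ≠ 2) (hact : IsGalAction act)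
    (h : IsHopfOrder p act Hs) (hpM : ∀ y : M, ∃ m : ℕ, p ^ m • y = 0) (N : AddSubgroup M)
    (hN : ∀ τ : PadicAlgCl p ≃ₐ[ℚ_[p]] PadicAlgCl p, ∀ y ∈ N, act (localGaloisToGlobal p τ) y ∈ N)
    (hI : ∀ τ : PadicAlgCl p ≃ₐ[ℚ_[p]] PadicAlgCl p, IsInertial τ →
      ∀ y : M, act (localGaloisToGlobal p τ) y - y ∈ N) :
    conn p Hs h ≤ N := by
  classical
  have hpr : p.Prime := Fact.out
  haveI : Fintype N := Fintype.ofFinite N
  set B : Submodule ℤ_[p] (M → PadicAlgCl p) := invSpan (locSpan Hs) N with hBdef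
  have hB : ComulClosed (B : Set (M → PadicAlgCl p)) := fun ψ hψ =>
    deltaRepL_invSpan (locSpan Hs) (actL_surj hact) (locSpan_equivariant h) (locSpan_fg h)
      (locSpan_deltaRepL h) N hψ
  have hval : ∀ ψ ∈ B, ∀ z : M, ∀ τ : PadicAlgCl p ≃ₐ[ℚ_[p]] PadicAlgCl p, IsInertial τ →
      τ (ψ z) = ψ z := by
    intro ψ hψ z τ hτ
    rw [← locSpan_equivariant h ψ hψ.1 τ z]
    have h1 := hψ.2 z _ (hI τ hτ z)
    rw [add_sub_cancel] at h1
    exact h1
  have hcong : ∀ y ∈ conn p Hs h, ∀ ψ ∈ B, ∀ z : M, ‖ψ (z + y) - ψ z‖ ≤ (p : ℝ)⁻¹ := by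
    intro y hy ψ hψ z
    refine norm_le_of_fixed (fun τ hτ => ?_) ?_
    · rw [map_sub, hval ψ hψ _ τ hτ, hval ψ hψ _ τ hτ]
    · have h1 : Cong p Hs (z + y) (z + 0) := Cong.add h (Cong.refl z) ((mem_conn h).mp hy)
      rw [add_zero] at h1
      exact locSpan_cong h1 ψ hψ.1
  have hq1 : (1 : ℝ) < p := by exact_mod_cast hpr.one_lt
  have hq0 : (0 : ℝ) < p := by exact_mod_cast hpr.pos
  have hr1 : (p : ℝ)⁻¹ ≤ 1 := (inv_lt_one_of_one_lt₀ hq1).le
  have hr : ((p : ℝ)⁻¹) ^ (p - 1) < ‖(p : PadicAlgCl p)‖ := by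
    rw [Fermat.Agent.S55.LocalInt.norm_natCast_self]
    have h3 : 3 ≤ p := by
      have := hpr.two_le
      omega
    exact pow_lt_self_of_lt_one₀ (inv_pos.mpr hq0) (inv_lt_one_of_one_lt₀ hq1) (by omega)
  -- induction on the order of the point
  have key : ∀ m : ℕ, ∀ y ∈ conn p Hs h, p ^ m • y = 0 →
      ∀ ψ ∈ (B : Set (M → PadicAlgCl p)), ∀ z, ψ (z + y) = ψ z := by
    intro m
    induction m with
    | zero =>
      intro y _ h0 ψ _ z
      rw [pow_zero, one_smul] at h0
      rw [h0, add_zero]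
    | succ m ih =>
      intro y hy h0
      have hy' : p • y ∈ conn p Hs h := (conn p Hs h).nsmul_mem hy p
      have h0' : p ^ m • (p • y) = 0 := by
        rw [← mul_smul, ← pow_succ]
        exact h0
      exact eq_of_norm_fwdDiff_le hB y (ih (p • y) hy' h0') (p : ℝ)⁻¹ hr1 hr (hcong y hy)
  intro y hy
  by_contra hyN
  obtain ⟨m, hm⟩ := hpM y
  have hrig := key m y hy hm
  have hy0 : y - 0 ∉ N := by rwa [sub_zero]
  obtain ⟨φ, hφ, hne⟩ := LocalOrder.exists_cosetSum_ne N h hy0
  apply hne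
  have h1 := hrig _ (cosetSum_mem_invSpan N hact h hN hφ) 0
  simp only [zero_add] at h1 ⊢
  exact h1

/-- **the connected subgroup is the augmentation subgroup of inertia**: `M ⧸ conn = M_{I_p}`. -/
theorem conn_eq_augInertial [Finite M] (hp2 : p ≠ 2) (hact : IsGalAction act)
    (h : IsHopfOrder p act Hs) (hpM : ∀ y : M, ∃ m : ℕ, p ^ m • y = 0) :
    conn p Hs h = augInertial p act :=
  le_antisymm
    (conn_le_of_inertial_ppow hp2 hact h hpM _ (fun τ => augInertial_stable hact τ)
      (fun _ hτ y => sub_mem_augInertial hτ y))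
    (closure_le_conn h)

/-- **inertia coinvariants are exact on Galois-stable filtrations of flat modules** (the
inequality which is not formal): `|W_{I_p}| · |(M/W)_{I_p}| ≤ |M_{I_p}|`. -/
theorem index_augInertial_ge [Finite M] (hp2 : p ≠ 2) (hact : IsGalAction act)
    (h : IsHopfOrder p act Hs) (hpM : ∀ y : M, ∃ m : ℕ, p ^ m • y = 0) (W : AddSubgroup M)
    (hW : ∀ σ, ∀ y ∈ W, act σ y ∈ W) (actQ : GQ → M ⧸ W → M ⧸ W)
    (hQ : ∀ σ y, actQ σ (QuotientAddGroup.mk y) = QuotientAddGroup.mk (act σ y)) :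
    (augInertial p (subAct act W hW)).index * (augInertial p actQ).index ≤
      (augInertial p act).index := by
  have hpW : ∀ y : W, ∃ m : ℕ, p ^ m • y = 0 := by
    intro y
    obtain ⟨m, hm⟩ := hpM y
    exact ⟨m, Subtype.ext (by rw [AddSubgroup.coe_nsmul, hm, AddSubgroup.coe_zero])⟩
  have hpQ : ∀ q : M ⧸ W, ∃ m : ℕ, p ^ m • q = 0 := by
    intro q
    obtain ⟨y, rfl⟩ := QuotientAddGroup.mk_surjective q
    obtain ⟨m, hm⟩ := hpM y
    exact ⟨m, by rw [← QuotientAddGroup.mk_nsmul, hm, QuotientAddGroup.mk_zero]⟩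
  rw [← conn_eq_augInertial hp2 hact h hpM,
    ← conn_eq_augInertial hp2 (isGalAction_subAct hact W hW) (isHopfOrder_subOrder h W hW) hpW,
    ← conn_eq_augInertial hp2 (isGalAction_quot hact W actQ hQ)
      (isHopfOrder_quotOrder hact h W hW actQ hQ) hpQ]
  exact index_conn_ge hact h W hW actQ hQ

end Fermat.Agent.S56.Flat.Etale.Intrinsic
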