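/-
S56 / FL-D (L4) (helper21): the END-RING form of "a point of order `p` congruent to `0` modulo `p`
is `0`" (`p` odd), with no Hopf algebra vocabulary.

* `eq_one_of_pow_eq_one` : `Λ` a `p`-torsion-free, `p`-adically separated module over a commutative
  ring `O`, `p` an odd prime, `T` an `O`-linear endomorphism with `T ^ p = 1` and `T ≡ 1 mod p`
  (i.e. `T x - x ∈ pΛ` for all `x`).  Then `T = 1`.
-/
import Mathlib

set_option autoImplicit false

namespace Fermat.Agent.S56.Flat.Etale.EndRing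

variable {O Λ : Type*} [CommRing O] [AddCommGroup Λ] [Module O Λ]

/-- For commuting `D`, `(1 + p D)^p - 1 = p² D (1 + p W)` with `W` a polynomial in `D`
(`p` an odd prime): the ring-theoretic identity, in a commutative ring. -/
theorem exists_one_add_mul_pow {R : Type*} [CommRing R] {p : ℕ} (hp : p.Prime) (hp2 : p ≠ 2)
    (d : R) : ∃ w : R, (1 + (p : R) * d) ^ p = 1 + (p : R) ^ 2 * d * (1 + (p : R) * w) := by
  have h3 : 3 ≤ p := by
    have := hp.two_le
    omega
  -- `(1 + x)^p = 1 + p x + x² * k` and `p ∣` the middle binomial coefficients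
  obtain ⟨k, hk⟩ : ∃ k : R, (1 + (p : R) * d) ^ p =
      1 + (p : R) * ((p : R) * d) + (p : R) * ((p : R) * d) ^ 2 * k + ((p : R) * d) ^ p := by
    have hsum := add_pow ((p : R) * d) (1 : R) p
    rw [add_comm] at hsum
    rw [hsum]
    -- split off `m = 0`, `m = 1`, `m = p`
    have hchoose : ∀ m ∈ Finset.Ioo 1 p, ∃ c : ℕ, p.choose m = p * c := by
      intro m hm
      rw [Finset.mem_Ioo] at hm
      exact hp.dvd_choose_self (by omega) hm.2
    choose! c hc using hchoose
    refine ⟨∑ m ∈ Finset.Ioo 1 p, ((p : R) * d) ^ (m - 2) * (c m : R), ?_⟩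
    have hrange : Finset.range (p + 1) = insert 0 (insert 1 (insert p (Finset.Ioo 1 p))) := by
      ext m
      simp only [Finset.mem_range, Finset.mem_insert, Finset.mem_Ioo]
      omega
    rw [hrange, Finset.sum_insert, Finset.sum_insert, Finset.sum_insert]
    · simp only [pow_zero, one_pow, mul_one, Nat.choose_zero_right, Nat.cast_one, pow_one,
        Nat.choose_one_right, Nat.choose_self, Nat.sub_self]
      rw [Finset.mul_sum]
      have : ∀ m ∈ Finset.Ioo 1 p, ((p : R) * d) ^ m * ((p.choose m : ℕ) : R) =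
          (p : R) * ((p : R) * d) ^ 2 * (((p : R) * d) ^ (m - 2) * (c m : R)) := by
        intro m hm
        rw [hc m hm, Nat.cast_mul]
        have hm2 : ((p : R) * d) ^ m = ((p : R) * d) ^ 2 * ((p : R) * d) ^ (m - 2) := by
          rw [← pow_add]
          congr 1
          rw [Finset.mem_Ioo] at hm
          omega
        rw [hm2]
        ring
      rw [Finset.sum_congr rfl this]
      ring
    · simp only [Finset.mem_Ioo]; omega
    · simp only [Finset.mem_insert, Finset.mem_Ioo]; omega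
    · simp only [Finset.mem_insert, Finset.mem_Ioo]; omega
  refine ⟨d * k + (p : R) ^ (p - 3) * d ^ (p - 1), ?_⟩
  rw [hk]
  have hpp : ((p : R) * d) ^ p = (p : R) ^ 3 * (p : R) ^ (p - 3) * (d * d ^ (p - 1)) := by
    rw [mul_pow, ← pow_add, ← pow_succ']
    congr 2 <;> omega
  rw [hpp]
  ring


/-- **(L4), end-ring form.**  `Λ` a `p`-torsion-free, `p`-adically separated `O`-module, `p` odd,
`T` an `O`-linear endomorphism of `Λ` with `T ^ p = 1` and `T ≡ 1` modulo `p`.  Then `T = 1`. -/
theorem eq_one_of_pow_eq_one {p : ℕ} (hp : p.Prime) (hp2 : p ≠ 2)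
    (htf : ∀ x : Λ, (p : O) • x = 0 → x = 0)
    (hsep : ∀ x : Λ, (∀ n : ℕ, ∃ y : Λ, x = (p : O) ^ n • y) → x = 0)
    (T : Λ →ₗ[O] Λ) (hT : T ^ p = 1) (hcong : ∀ x, ∃ y, T x - x = (p : O) • y) : T = 1 := by
  choose D₀ hD₀ using hcong
  have hinj : ∀ x y : Λ, (p : O) • x = (p : O) • y → x = y := by
    intro x y h
    have : (p : O) • (x - y) = 0 := by rw [smul_sub, h, sub_self]
    exact sub_eq_zero.mp (htf _ this)
  let D : Λ →ₗ[O] Λ :=
    { toFun := D₀
      map_add' := by
        intro x y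
        apply hinj
        rw [smul_add, ← hD₀, ← hD₀, ← hD₀, map_add]
        abel
      map_smul' := by
        intro c x
        apply hinj
        rw [RingHom.id_apply, smul_comm, ← hD₀, ← hD₀, map_smul, smul_sub] }
  have hDx : ∀ x, T x = x + (p : O) • D x := by
    intro x
    show T x = x + (p : O) • D₀ x
    rw [← hD₀]; abel
  have hcast : ∀ E : Module.End O Λ, ((p : ℕ) : Module.End O Λ) * E = (p : O) • E := by
    intro E
    rw [← map_natCast (algebraMap O (Module.End O Λ)) p, ← Algebra.smul_def]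
  have hTD : T = 1 + ((p : ℕ) : Module.End O Λ) * D := by
    rw [hcast]
    ext x
    simp only [LinearMap.add_apply, Module.End.one_apply, LinearMap.smul_apply]
    exact hDx x
  obtain ⟨w, hw⟩ := exists_one_add_mul_pow (R := Polynomial O) hp hp2 Polynomial.X
  have hw' := congrArg (Polynomial.aeval D) hw
  simp only [map_pow, map_add, map_one, map_mul, map_natCast, Polynomial.aeval_X] at hw'
  have hcomm : Polynomial.aeval D w * D = D * Polynomial.aeval D w := by
    have := congrArg (Polynomial.aeval D) (mul_comm w Polynomial.X)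
    simpa only [map_mul, Polynomial.aeval_X] using this
  generalize Polynomial.aeval D w = W at hw' hcomm
  rw [← hTD, hT] at hw'
  -- `p² • D (x + p • W x) = 0`
  have h1 : ∀ x, D x = -((p : O) • W (D x)) := by
    intro x
    have h2 := LinearMap.congr_fun hw' x
    rw [pow_two, mul_assoc, mul_assoc] at h2
    simp only [hcast, LinearMap.add_apply, Module.End.one_apply, LinearMap.smul_apply,
      Module.End.mul_apply, map_add, map_smul] at h2
    have h3 : (p : O) • (p : O) • (D x + (p : O) • D (W x)) = 0 := by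
      have := sub_eq_zero.mpr h2.symm
      simpa only [add_sub_cancel_left] using this
    have h4 := htf _ (htf _ h3)
    have h5 : D (W x) = W (D x) := by
      have := LinearMap.congr_fun hcomm x
      simpa only [Module.End.mul_apply] using this.symm
    rw [h5] at h4
    exact eq_neg_of_add_eq_zero_left h4
  have h6 : ∀ n : ℕ, ∀ x, ∃ y, D x = (p : O) ^ n • y := by
    intro n
    induction n with
    | zero => intro x; exact ⟨D x, by rw [pow_zero, one_smul]⟩
    | succ n ih =>
      intro x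
      obtain ⟨y, hy⟩ := ih x
      refine ⟨-(W y), ?_⟩
      rw [h1 x, hy, map_smul, smul_neg, pow_succ', mul_smul]
  have hD0 : ∀ x, D x = 0 := fun x => hsep _ (fun n => h6 n x)
  ext x
  rw [hDx x, hD0 x, smul_zero, add_zero, Module.End.one_apply]

/-- **(L4), function-space form.**  `R` a commutative ring in which `p` (odd prime) is a
non-zero-divisor and which is `p`-adically separated; `Λ` an `R`-submodule of the functions
`M → R`; `σ : M → M` with `σ^[p] = id`.  If for every `ψ ∈ Λ` the difference `ψ ∘ σ - ψ` lies in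
`p • Λ`, then every `ψ ∈ Λ` is `σ`-invariant. -/
theorem comp_eq_of_congr {M R : Type*} [CommRing R] {p : ℕ} (hp : p.Prime) (hp2 : p ≠ 2)
    (hnzd : ∀ r : R, (p : R) * r = 0 → r = 0)
    (hsepR : ∀ r : R, (∀ n : ℕ, ∃ s : R, r = (p : R) ^ n * s) → r = 0)
    (Λ : Submodule R (M → R)) (σ : M → M) (hσ : σ^[p] = id)
    (hcong : ∀ ψ ∈ Λ, ∃ χ ∈ Λ, ψ ∘ σ - ψ = (p : R) • χ) :
    ∀ ψ ∈ Λ, ∀ z, ψ (σ z) = ψ z := by
  have hstab : ∀ ψ ∈ Λ, ψ ∘ σ ∈ Λ := by
    intro ψ hψ
    obtain ⟨χ, hχ, h⟩ := hcong ψ hψ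
    have : ψ ∘ σ = ψ + (p : R) • χ := by rw [← h]; abel
    rw [this]
    exact Λ.add_mem hψ (Λ.smul_mem _ hχ)
  let T : Λ →ₗ[R] Λ :=
    { toFun := fun ψ => ⟨ψ.1 ∘ σ, hstab ψ.1 ψ.2⟩
      map_add' := fun ψ χ => rfl
      map_smul' := fun c ψ => rfl }
  have hTn : ∀ n : ℕ, ∀ ψ : Λ, ((T ^ n) ψ : M → R) = ψ.1 ∘ σ^[n] := by
    intro n
    induction n with
    | zero => intro ψ; rfl
    | succ n ih =>
      intro ψ
      rw [pow_succ, Module.End.mul_apply, ih, Function.iterate_succ']
      rfl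
  have hT : T ^ p = 1 := by
    ext ψ : 2
    rw [hTn p ψ, hσ]
    rfl
  have hT1 : T = 1 := by
    refine eq_one_of_pow_eq_one hp hp2 ?_ ?_ T hT ?_
    · intro ψ h
      ext z
      have := congrFun (congrArg Subtype.val h) z
      exact hnzd _ this
    · intro ψ h
      ext z
      refine hsepR _ (fun n => ?_)
      obtain ⟨χ, hχ⟩ := h n
      exact ⟨χ.1 z, congrFun (congrArg Subtype.val hχ) z⟩
    · intro ψ
      obtain ⟨χ, hχ, h⟩ := hcong ψ.1 ψ.2
      exact ⟨⟨χ, hχ⟩, Subtype.ext h⟩
  intro ψ hψ z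
  have := congrFun (congrArg Subtype.val (LinearMap.congr_fun hT1 ⟨ψ, hψ⟩)) z
  exact this

/-- **(L4), translation form.**  `M` an additive monoid, `y : M` with `p • y = 0`, `Λ ≤ (M → R)`
an `R`-submodule such that `ψ(· + y) - ψ ∈ p • Λ` for all `ψ ∈ Λ`.  Then every `ψ ∈ Λ` is
invariant under translation by `y`. -/
theorem translate_eq_of_congr {M R : Type*} [AddMonoid M] [CommRing R] {p : ℕ} (hp : p.Prime)
    (hp2 : p ≠ 2) (hnzd : ∀ r : R, (p : R) * r = 0 → r = 0)
    (hsepR : ∀ r : R, (∀ n : ℕ, ∃ s : R, r = (p : R) ^ n * s) → r = 0)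
    (Λ : Submodule R (M → R)) (y : M) (hy : p • y = 0)
    (hcong : ∀ ψ ∈ Λ, ∃ χ ∈ Λ, (fun z => ψ (z + y)) - ψ = (p : R) • χ) :
    ∀ ψ ∈ Λ, ∀ z, ψ (z + y) = ψ z := by
  have hiter : ∀ n : ℕ, (fun z : M => z + y)^[n] = fun z => z + n • y := by
    intro n
    induction n with
    | zero => funext z; simp
    | succ n ih =>
      funext z
      rw [Function.iterate_succ_apply', ih, succ_nsmul, add_assoc]
  refine comp_eq_of_congr hp hp2 hnzd hsepR Λ (fun z => z + y) ?_ hcong
  rw [hiter, hy]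
  funext z
  simp

end Fermat.Agent.S56.Flat.Etale.EndRing
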