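/-
S56, block F (FLAT), leaf [FL-D] core, part 5 (helper6): (LocUnr), SUB form.

`Hs` a Hopf order on `M`, `p ≥ 3`, `p M = 0`, `N ≤ M` a subgroup on which the inertia group acts
trivially.  Then `conn p Hs h ⊓ N = ⊥`: an unramified subgroup injects into the étale quotient.
(The schematic closure of `N` is a finite flat group scheme with unramified generic fibre, hence
étale.)  Proof: the restrictions to `N` of the functions of the local span form a family closed
under comultiplication with inertia-fixed values; rigidity (`Unram.eq_of_norm_fwdDiff_le`) on the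
group `↥N`; separation.
-/
import Mathlib
import Fermat.Agent.S56.Flat.Etale.Inertial

set_option autoImplicit false
set_option linter.unusedSectionVars false
set_option linter.style.haveILetI false

open GaloisRep Fermat.Agent.S19.Abs Fermat.Agent.S19.Base
open Fermat.Agent.S56.Flat.PointsField Fermat.Agent.S56.Flat.Etale.QuotOrder
open Fermat.Agent.S56.Flat.Etale.Connected Fermat.Agent.S56.Flat.Etale.LocalOrder
open Fermat.Agent.S56.Flat.Etale.Unram Fermat.Agent.S56.Flat.Etale.Inertial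

namespace Fermat.Agent.S56.Flat.Etale.InertialSub

variable {p : ℕ} [Fact p.Prime] {M : Type} [AddCommGroup M] {act : GQ → M → M}
  {Hs : Subalgebra (ratLocalizedAt p) (M → Qb)}

/-- the restrictions to a subgroup of the functions of the local span -/
def resSpan (Hs : Subalgebra (ratLocalizedAt p) (M → Qb)) (N : AddSubgroup M) :
    Set (N → PadicAlgCl p) :=
  {χ | ∃ ψ ∈ locSpan Hs, χ = fun n : N => ψ (n : M)}

theorem comulClosed_resSpan (h : IsHopfOrder p act Hs) (N : AddSubgroup M) :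
    ComulClosed (resSpan Hs N) := by
  rintro _ ⟨ψ, hψ, rfl⟩
  obtain ⟨J, _, a, b, ha, hb, hab⟩ := locSpan_deltaRepL h ψ hψ
  refine ⟨J, inferInstance, fun j n => a j (n : M), fun j n => b j (n : M),
    fun j => ⟨a j, ha j, rfl⟩, fun j => ⟨b j, hb j, rfl⟩, fun z z' => ?_⟩
  show ψ ((z + z' : N) : M) = _
  rw [AddSubgroup.coe_add, hab]

/-- **THEOREM (LocUnr), sub form**: a subgroup on which the inertia group acts trivially meets the
connected subgroup trivially. -/
theorem conn_inf_eq_bot_of_inertial (hp2 : p ≠ 2) (h : IsHopfOrder p act Hs)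
    (hpM : ∀ y : M, p • y = 0) (N : AddSubgroup M)
    (hI : ∀ τ : PadicAlgCl p ≃ₐ[ℚ_[p]] PadicAlgCl p, IsInertial τ →
      ∀ y ∈ N, act (localGaloisToGlobal p τ) y = y) :
    conn p Hs h ⊓ N = ⊥ := by
  have hpr : p.Prime := Fact.out
  rw [eq_bot_iff]
  rintro y ⟨hyC, hyN⟩
  rw [AddSubgroup.mem_bot]
  have hB := comulClosed_resSpan h N
  set y' : N := ⟨y, hyN⟩ with hy'
  -- the values on `N` are fixed by inertia
  have hval : ∀ ψ ∈ locSpan Hs, ∀ z : N, ∀ τ : PadicAlgCl p ≃ₐ[ℚ_[p]] PadicAlgCl p,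
      IsInertial τ → τ (ψ (z : M)) = ψ (z : M) := by
    intro ψ hψ z τ hτ
    rw [← locSpan_equivariant h ψ hψ τ z]
    show ψ (act (localGaloisToGlobal p τ) (z : M)) = ψ (z : M)
    rw [hI τ hτ z z.2]
  have hcong : ∀ χ ∈ resSpan Hs N, ∀ z : N, ‖χ (z + y') - χ z‖ ≤ (p : ℝ)⁻¹ := by
    rintro _ ⟨ψ, hψ, rfl⟩ z
    refine norm_le_of_fixed (fun τ hτ => ?_) ?_
    · rw [map_sub, hval ψ hψ _ τ hτ, hval ψ hψ _ τ hτ]
    · have h1 : Cong p Hs ((z : M) + y) ((z : M) + 0) :=
        Cong.add h (Cong.refl (z : M)) ((mem_conn h).mp hyC)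
      rw [add_zero] at h1
      exact locSpan_cong h1 ψ hψ
  have hq1 : (1 : ℝ) < p := by exact_mod_cast hpr.one_lt
  have hq0 : (0 : ℝ) < p := by exact_mod_cast hpr.pos
  have hr1 : (p : ℝ)⁻¹ ≤ 1 := (inv_lt_one_of_one_lt₀ hq1).le
  have hr : ((p : ℝ)⁻¹) ^ (p - 1) < ‖(p : PadicAlgCl p)‖ := by
    rw [Fermat.Agent.S55.LocalInt.norm_natCast_self]
    have h3 : 3 ≤ p := by
      have := hpr.two_le
      omega
    exact pow_lt_self_of_lt_one₀ (inv_pos.mpr hq0) (inv_lt_one_of_one_lt₀ hq1) (by omega)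
  have hper : ∀ χ ∈ resSpan Hs N, ∀ z : N, χ (z + p • y') = χ z := by
    intro χ _ z
    have : p • y' = 0 := Subtype.ext (by
      rw [AddSubgroup.coe_nsmul, AddSubgroup.coe_zero]
      exact hpM y)
    rw [this, add_zero]
  have hrig := eq_of_norm_fwdDiff_le hB y' hper (p : ℝ)⁻¹ hr1 hr hcong
  -- separation
  by_contra hne
  obtain ⟨φ, hφ, hφne⟩ := h.separates y 0 hne
  apply hφne
  apply (padicEmbedding p).toRingHom.injective
  have h1 := hrig _ ⟨emb p φ, emb_mem_locSpan hφ, rfl⟩ 0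
  simp only [zero_add, hy', AddSubgroup.coe_zero, emb_apply] at h1
  exact h1

end Fermat.Agent.S56.Flat.Etale.InertialSub
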